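import Fermat.Agent.S21.ParabolicDimAbstract
import Fermat.Agent.S20.CountFinal
import Fermat.Agent.S24.Counting.Cusps
import Fermat.Prelude.Def_ModularCurve_PeriodHomPair
import Fermat.Prelude.Def_ModularCurve_GenusNumerics

/-!
# S21 (project ES), slice ES4: `dim Hom_par(Γ₀(N), ℂ) ≤ 2 g(N)`

The abstract bound of `ParabolicDimAbstract` applied to `G = SL(2,ℤ)`, `Γ = Γ₀(N)`,
`Q = SL(2,ℤ) ⧸ Γ₀(N)`, `s = S`, `t = T`, together with the orbit counts of the counting library
(`Fermat/Agent/S20/Count*.lean`, `Fermat/Agent/S24/Counting/*.lean`).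
-/

set_option autoImplicit false

open CongruenceSubgroup Matrix.SpecialLinearGroup ModularGroup MulAction
open scoped MatrixGroups

namespace Fermat.Agent.S21.ParabolicDim

open Fermat.Agent.S20.Count

variable (N : ℕ)

/-- The coset data of `Γ₀(N)` in `SL(2,ℤ)`. -/
noncomputable def gammaData : CosetData (Gamma0 N) (Q N) where
  x₀ := (QuotientGroup.mk 1 : Q N)
  r := Quotient.out
  mem_iff := by
    intro g
    rw [smul_mk, QuotientGroup.eq, mul_one, mul_one, inv_mem_iff]
  r_smul := by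
    intro x
    rw [smul_mk, mul_one]
    exact QuotientGroup.out_eq' x

theorem trace_conj (A B : SL(2, ℤ)) :
    ((A⁻¹ * B * A : SL(2, ℤ)) : Matrix (Fin 2) (Fin 2) ℤ).trace
      = (B : Matrix (Fin 2) (Fin 2) ℤ).trace := by
  have h1 : ((A⁻¹ * B * A : SL(2, ℤ)) : Matrix (Fin 2) (Fin 2) ℤ)
      = (A⁻¹ : SL(2, ℤ)).1 * (B.1 * A.1) := by
    rw [mul_assoc]; simp [Matrix.SpecialLinearGroup.coe_mul]
  rw [h1, Matrix.trace_mul_comm, Matrix.mul_assoc]
  have h2 : A.1 * (A⁻¹ : SL(2, ℤ)).1 = 1 := by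
    rw [← Matrix.SpecialLinearGroup.coe_mul, mul_inv_cancel, Matrix.SpecialLinearGroup.coe_one]
  rw [h2, Matrix.mul_one]

variable [NeZero N]

/-- If `g` acts trivially on the cosets and has `trace² = 4`, parabolic homs kill its cocycle. -/
theorem coc_eq_zero_of_trace {ψ : Additive (Gamma0 N) →+ ℂ}
    (hψ : ψ ∈ ModularCurve.Period.parabolicHoms ℂ (Gamma0 N) ℂ) (g : SL(2, ℤ))
    (htriv : ∀ x : Q N, g • x = x)
    (htr : (g : Matrix (Fin 2) (Fin 2) ℤ).trace ^ 2 = 4) (x : Q N) :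
    (gammaData N).coc ψ g x = 0 := by
  rw [ModularCurve.Period.mem_parabolicHoms_iff] at hψ
  apply hψ
  have hx : g⁻¹ • x = x := by rw [inv_smul_eq_iff, htriv]
  show (((gammaData N).elt g x : Gamma0 N) : SL(2, ℤ)).1.trace ^ 2 = 4
  have : (((gammaData N).elt g x : Gamma0 N) : SL(2, ℤ))
      = ((gammaData N).r x)⁻¹ * g * (gammaData N).r x := by
    simp only [CosetData.elt, hx]
  rw [this, trace_conj, htr]

theorem S_sq : (S : SL(2, ℤ)) ^ 2 = -1 := by decide

theorem ST_cube : (S * T : SL(2, ℤ)) ^ 3 = -1 := by decide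

theorem trace_neg_one : ((-1 : SL(2, ℤ)) : Matrix (Fin 2) (Fin 2) ℤ).trace ^ 2 = 4 := by decide

theorem T_pow_smul (x : Q N) : (T : SL(2, ℤ)) ^ N • x = x := by
  induction x using QuotientGroup.induction_on with
  | H g =>
    rw [smul_mk, mk_eq_mk_iff]
    have h := col_T_zpow_mul N (N : ℤ) g
    rw [zpow_natCast] at h
    rw [h]
    simp [cross, mul_comm]

theorem trace_T_pow (k : ℕ) : ((T : SL(2, ℤ)) ^ k : SL(2, ℤ)).1.trace ^ 2 = 4 := by
  have h := ModularGroup.coe_T_zpow (k : ℤ)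
  rw [zpow_natCast] at h
  rw [h, Matrix.trace_fin_two_of]
  norm_num

/-- **ES4**: the parabolic homomorphisms of `Γ₀(N)` form a finite-dimensional space of dimension
at most `2 g(N)`. -/
theorem finrank_parabolicHoms_le :
    FiniteDimensional ℂ (ModularCurve.Period.parabolicHoms ℂ (Gamma0 N) ℂ) ∧
    (Module.finrank ℂ (ModularCurve.Period.parabolicHoms ℂ (Gamma0 N) ℂ) : ℚ)
      ≤ 2 * ModularCurve.genusFormula N := by
  classical
  haveI : Fintype (Q N) := Fintype.ofFinite _
  let Os := orbitRel.Quotient (Subgroup.zpowers (S : SL(2, ℤ))) (Q N)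
  let Ot := orbitRel.Quotient (Subgroup.zpowers (T : SL(2, ℤ))) (Q N)
  let Ou := orbitRel.Quotient (Subgroup.zpowers (S * T : SL(2, ℤ))) (Q N)
  haveI : Fintype Os := Fintype.ofFinite _
  haveI : Fintype Ot := Fintype.ofFinite _
  haveI : Fintype Ou := Fintype.ofFinite _
  have hinv : ∀ (g : SL(2, ℤ)) (x : Q N),
      (Quotient.mk'' (g • x) : orbitRel.Quotient (Subgroup.zpowers g) (Q N)) = Quotient.mk'' x := by
    intro g x
    apply Quotient.sound'
    exact ⟨⟨g, Subgroup.mem_zpowers g⟩, rfl⟩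
  have hN : N ≠ 0 := NeZero.ne N
  have hStriv : ∀ x : Q N, (S : SL(2, ℤ)) ^ 2 • x = x := fun x => by
    rw [S_sq]; exact neg_one_smul N x
  have hUtriv : ∀ x : Q N, (S * T : SL(2, ℤ)) ^ 3 • x = x := fun x => by
    rw [ST_cube]; exact neg_one_smul N x
  have hTtriv : ∀ x : Q N, (T : SL(2, ℤ)) ^ N • x = x := T_pow_smul N
  obtain ⟨hfd, hmain⟩ := finrank_add_card_le (gammaData N) (s := S) (t := T)
    SpecialLinearGroup.SL2Z_generators
    (Os := Os) (Ot := Ot) (Ou := Ou)
    (fun x => Quotient.mk'' x) (fun x => Quotient.mk'' x) (fun x => Quotient.mk'' x)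
    Quotient.mk''_surjective Quotient.mk''_surjective Quotient.mk''_surjective
    (hinv S) (hinv T) (hinv (S * T))
    (ks := 2) (kt := N) (ku := 3) (by norm_num) hN (by norm_num)
    hStriv hTtriv hUtriv
    (ModularCurve.Period.parabolicHoms ℂ (Gamma0 N) ℂ)
    (fun ψ hψ x => coc_eq_zero_of_trace N hψ _ hStriv (by rw [S_sq]; exact trace_neg_one) x)
    (fun ψ hψ x => coc_eq_zero_of_trace N hψ _ hTtriv (trace_T_pow N) x)
    (fun ψ hψ x => coc_eq_zero_of_trace N hψ _ hUtriv (by rw [ST_cube]; exact trace_neg_one) x)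
  refine ⟨hfd, ?_⟩
  -- the counts
  have cQ : Fintype.card (Q N) = ModularCurve.dedekindPsi N := by
    rw [← Nat.card_eq_fintype_card]; exact Fermat.Agent.S20.CountFinal.card_Q N
  have cS : 2 * Fintype.card Os = ModularCurve.dedekindPsi N + ModularCurve.nuTwo N := by
    rw [← Nat.card_eq_fintype_card, ← Fermat.Agent.S20.CountFinal.card_Q N]
    exact two_mul_card_orbits_S N
  have cU : 3 * Fintype.card Ou = ModularCurve.dedekindPsi N + 2 * ModularCurve.nuThree N := by
    rw [← Nat.card_eq_fintype_card, ← Fermat.Agent.S20.CountFinal.card_Q N]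
    exact three_mul_card_orbits_ST N
  have cT : Fintype.card Ot = ModularCurve.cuspCount N := by
    rw [← Nat.card_eq_fintype_card]
    exact Fermat.Agent.S20.CountFinal.card_orbits_T_of N (Fermat.Agent.S24.Counting.Cusps.cuspRel N)
      (fun v w => Iff.rfl) (Fermat.Agent.S24.Counting.Cusps.card_cusps N)
  rw [cQ, cT] at hmain
  have h1 : (Module.finrank ℂ (ModularCurve.Period.parabolicHoms ℂ (Gamma0 N) ℂ) : ℚ)
      + Fintype.card Os + ModularCurve.cuspCount N + Fintype.card Ou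
      ≤ ModularCurve.dedekindPsi N + 2 := by exact_mod_cast hmain
  have h2 : (2 : ℚ) * Fintype.card Os = ModularCurve.dedekindPsi N + ModularCurve.nuTwo N := by
    exact_mod_cast cS
  have h3 : (3 : ℚ) * Fintype.card Ou = ModularCurve.dedekindPsi N + 2 * ModularCurve.nuThree N := by
    exact_mod_cast cU
  unfold ModularCurve.genusFormula
  linarith

end Fermat.Agent.S21.ParabolicDim
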