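import Mathlib
import Fermat.Prelude.Def_ModularCurve_PeriodHomPair

/-!
# S21 (project ES), slice (ES2): period homomorphisms are parabolic

* `exists_conj_T_zpow` : an element of `SL(2,ℤ)` with `trace² = 4` is conjugate to `± T ^ k`.
* `exists_conj_smul` : the same on the level of the action on `ℍ`.
* `periodMap_mem_parabolicHoms` : the prelude period map of a cusp form of weight 2 on `Γ₀(N)`
  vanishes on all parabolic elements (no input on existence of primitives is needed: the limit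
  clause of `HasEquivariantPrimitive` does the job).
-/

set_option autoImplicit false

namespace Fermat.Agent.S21.Parabolic

open UpperHalfPlane CongruenceSubgroup Filter Topology ModularGroup Matrix
open ModularCurve ModularCurve.Period

open scoped MatrixGroups

/-- Primitive kernel vector of a nilpotent integral `2 × 2` matrix `!![p, b; c, -p]`. -/
theorem exists_primitive_kernel (p b c : ℤ) (h : p ^ 2 + b * c = 0) :
    ∃ x y s t : ℤ, s * x + t * y = 1 ∧ p * x + b * y = 0 ∧ c * x - p * y = 0 := by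
  by_cases hg : Int.gcd b p = 0
  · have hb : b = 0 := (Int.gcd_eq_zero_iff.1 hg).1
    have hp : p = 0 := (Int.gcd_eq_zero_iff.1 hg).2
    subst hb hp
    exact ⟨0, 1, 0, 1, by ring, by ring, by ring⟩
  · have hpos : 0 < Int.gcd b p := Nat.pos_of_ne_zero hg
    obtain ⟨x, p', hcop, hb, hp⟩ := Int.exists_gcd_one hpos
    obtain ⟨g, hgdef⟩ : ∃ g : ℤ, g = (Int.gcd b p : ℤ) := ⟨_, rfl⟩
    rw [← hgdef] at hb hp
    have hg0 : g ≠ 0 := by rw [hgdef]; exact_mod_cast hg
    -- Bezout for `x, p'`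
    have hcop' : IsCoprime x p' := Int.isCoprime_iff_gcd_eq_one.2 hcop
    obtain ⟨s, t, hst⟩ := hcop'
    refine ⟨x, -p', s, -t, by linear_combination hst, ?_, ?_⟩
    · rw [hb, hp]; ring
    · -- `g * (c x + p'^2 g) = 0`
      have h1 : g * (c * x - p * -p') = 0 := by
        rw [hp]
        have : (p' * g) ^ 2 + (x * g) * c = 0 := by rw [← hp, ← hb]; exact h
        linear_combination this
      exact (mul_eq_zero.1 h1).resolve_left hg0

/-- An element of `SL(2,ℤ)` with `trace² = 4` has a primitive integral eigenvector. -/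
theorem exists_primitive_eigenvector (γ : SL(2, ℤ))
    (h : (γ : Matrix (Fin 2) (Fin 2) ℤ).trace ^ 2 = 4) :
    ∃ x y s t : ℤ, s * x + t * y = 1 ∧ x * (γ 1 0 * x + γ 1 1 * y) = y * (γ 0 0 * x + γ 0 1 * y) := by
  have hdet := γ.det_coe
  rw [Matrix.det_fin_two] at hdet
  rw [Matrix.trace_fin_two] at h
  have htr : γ 0 0 + γ 1 1 = 2 ∨ γ 0 0 + γ 1 1 = -2 := by
    have h' : (γ 0 0 + γ 1 1 - 2) * (γ 0 0 + γ 1 1 + 2) = 0 := by linear_combination h
    rcases mul_eq_zero.1 h' with h1 | h1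
    · left; linarith
    · right; linarith
  rcases htr with htr | htr
  · obtain ⟨x, y, s, t, hst, h1, h2⟩ := exists_primitive_kernel (γ 0 0 - 1) (γ 0 1) (γ 1 0)
      (by
        have hd : γ 1 1 = 2 - γ 0 0 := by linarith
        rw [hd] at hdet
        linear_combination -hdet)
    refine ⟨x, y, s, t, hst, ?_⟩
    have hd : γ 1 1 = 2 - γ 0 0 := by linarith
    rw [hd]
    linear_combination x * h2 - y * h1
  · obtain ⟨x, y, s, t, hst, h1, h2⟩ := exists_primitive_kernel (γ 0 0 + 1) (γ 0 1) (γ 1 0)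
      (by
        have hd : γ 1 1 = -2 - γ 0 0 := by linarith
        rw [hd] at hdet
        linear_combination -hdet)
    refine ⟨x, y, s, t, hst, ?_⟩
    have hd : γ 1 1 = -2 - γ 0 0 := by linarith
    rw [hd]
    linear_combination x * h2 - y * h1

/-- An element of `SL(2,ℤ)` with `trace² = 4` is conjugate to an upper triangular matrix. -/
theorem exists_conj_c_eq_zero (γ : SL(2, ℤ))
    (h : (γ : Matrix (Fin 2) (Fin 2) ℤ).trace ^ 2 = 4) :
    ∃ δ : SL(2, ℤ), (δ⁻¹ * γ * δ) 1 0 = 0 := by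
  obtain ⟨x, y, s, t, hst, he⟩ := exists_primitive_eigenvector γ h
  refine ⟨⟨!![x, -t; y, s], by rw [Matrix.det_fin_two_of]; linear_combination hst⟩, ?_⟩
  simp only [Matrix.SpecialLinearGroup.coe_mul, Matrix.SpecialLinearGroup.coe_inv,
    Matrix.adjugate_fin_two_of, Matrix.mul_apply, Fin.sum_univ_two]
  simp
  linear_combination he

/-- An element of `SL(2,ℤ)` with `trace² = 4` is conjugate to `± T ^ k`. -/
theorem exists_conj_T_zpow (γ : SL(2, ℤ))
    (h : (γ : Matrix (Fin 2) (Fin 2) ℤ).trace ^ 2 = 4) :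
    ∃ (δ : SL(2, ℤ)) (k : ℤ), γ = δ * T ^ k * δ⁻¹ ∨ γ = -(δ * T ^ k * δ⁻¹) := by
  obtain ⟨δ, hc⟩ := exists_conj_c_eq_zero γ h
  obtain ⟨g, hg⟩ : ∃ g : SL(2, ℤ), g = δ⁻¹ * γ * δ := ⟨_, rfl⟩
  rw [← hg] at hc
  have hγ : γ = δ * g * δ⁻¹ := by rw [hg]; group
  have had := g.det_coe
  replace had : g 0 0 * g 1 1 = 1 := by rw [det_fin_two, hc] at had; lia
  rcases Int.eq_one_or_neg_one_of_mul_eq_one' had with (⟨ha, hd⟩ | ⟨ha, hd⟩)
  · refine ⟨δ, g 0 1, Or.inl ?_⟩
    have : g = T ^ g 0 1 := by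
      ext i j; fin_cases i <;> fin_cases j <;>
        simp [ha, hc, hd, coe_T_zpow, show (1 : Fin (0 + 2)) = (1 : Fin 2) from rfl]
    rw [hγ, ← this]
  · refine ⟨δ, -(g 0 1), Or.inr ?_⟩
    have : g = -T ^ (-(g 0 1)) := by
      ext i j; fin_cases i <;> fin_cases j <;>
        simp [ha, hc, hd, coe_T_zpow, show (1 : Fin (0 + 2)) = (1 : Fin 2) from rfl]
    rw [hγ]
    conv_lhs => rw [this]
    simp

/-- Action form: a parabolic (or `± 1`) element acts as a conjugate of a translation. -/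
theorem exists_conj_smul (γ : SL(2, ℤ))
    (h : (γ : Matrix (Fin 2) (Fin 2) ℤ).trace ^ 2 = 4) :
    ∃ (δ : SL(2, ℤ)) (k : ℤ), ∀ w : ℍ, γ • (δ • w) = δ • (T ^ k • w) := by
  obtain ⟨δ, k, hk | hk⟩ := exists_conj_T_zpow γ h
  · refine ⟨δ, k, fun w => ?_⟩
    rw [hk, ← mul_smul, ← mul_smul]
    congr 1
    group
  · refine ⟨δ, k, fun w => ?_⟩
    rw [hk, SL_neg_smul, ← mul_smul, ← mul_smul]
    congr 1
    group

theorem tendsto_T_zpow_smul (k : ℤ) :
    Tendsto (fun w : ℍ => T ^ k • w) atImInfty atImInfty := by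
  unfold atImInfty
  rw [tendsto_comap_iff]
  have : (UpperHalfPlane.im ∘ fun w : ℍ => T ^ k • w) = UpperHalfPlane.im := by
    funext w
    exact im_T_zpow_smul w k
  rw [this]
  exact tendsto_comap

/-- The period of an equivariant primitive with limits at all cusps vanishes on parabolic
elements. -/
theorem period_eq_zero_of_parabolic {N : ℕ} {F : ℍ → ℂ}
    (hF : IsEquivariantPrimitive (Gamma0 N) F)
    (hlim : ∀ δ : SL(2, ℤ), ∃ L : ℂ, Tendsto (fun w : ℍ => F (δ • w)) atImInfty (𝓝 L))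
    (γ : Gamma0 N)
    (hγ : ((γ : SL(2, ℤ)) : Matrix (Fin 2) (Fin 2) ℤ).trace ^ 2 = 4) :
    hF.period γ = 0 := by
  obtain ⟨δ, k, hk⟩ := exists_conj_smul (γ : SL(2, ℤ)) hγ
  obtain ⟨L, hL⟩ := hlim δ
  have h1 : ∀ w : ℍ, F (δ • (T ^ k • w)) - F (δ • w) = hF.period γ := by
    intro w
    rw [← hk w]
    exact hF.sub_eq_period γ (δ • w)
  have h2 : Tendsto (fun w : ℍ => F (δ • (T ^ k • w)) - F (δ • w)) atImInfty (𝓝 (L - L)) := by
    refine Tendsto.sub ?_ hL
    exact hL.comp (tendsto_T_zpow_smul k)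
  have h3 : Tendsto (fun _ : ℍ => hF.period γ) atImInfty (𝓝 (L - L)) := by
    refine h2.congr fun w => h1 w
  have h4 := tendsto_nhds_unique h3 tendsto_const_nhds
  rw [sub_self] at h4
  exact h4.symm

/-- **(ES2)** The prelude period map takes values in the parabolic homomorphisms. -/
theorem periodMap_mem_parabolicHoms (N : ℕ) (f : CuspForm (Gamma0 N) 2) :
    periodMap N f ∈ parabolicHoms ℂ (Gamma0 N) ℂ := by
  classical
  rw [mem_parabolicHoms_iff]
  by_cases h : ∃ F : ℍ → ℂ, HasEquivariantPrimitive N f F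
  · obtain ⟨F, hF⟩ := h
    obtain ⟨F₀, h₀, hper⟩ := periodMap_def N f hF
    rw [hper]
    intro γ hγ
    rw [IsEquivariantPrimitive.periodHom_apply]
    exact period_eq_zero_of_parabolic h₀.2.2.1 h₀.2.2.2 γ hγ
  · intro γ _
    unfold periodMap
    rw [dif_neg h]
    rfl

end Fermat.Agent.S21.Parabolic
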