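/-
S21 (Eichler–Shimura), slice (ES1) of PROJECT ES: equivariant primitives of weight-two cusp forms
on `Γ₀(N)`, and linearity of the prelude period map (helper6).

Built on the normalised primitives `prim` of `Fermat.Agent.S22.Primitive` (helper20).
-/
import Mathlib
import Fermat.Prelude.Def_ModularCurve_PeriodHomPair
import Fermat.Prelude.Thm_Subgroup_IsArithmetic_exists_nat_mem_strictPeriods_conj
import Fermat.Prelude.Thm_CongruenceSubgroup_one_mem_strictPeriods_Gamma0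
import Fermat.Agent.S22.Primitive

set_option autoImplicit false

open UpperHalfPlane CongruenceSubgroup Filter Topology ModularCurve ModularCurve.Period
open Matrix.SpecialLinearGroup
open scoped MatrixGroups ModularForm

namespace Fermat.Agent.S21.Primitive

open Fermat.Agent.S22.Primitive

/-- A cusp-like function tends to `0` at `i∞` (as a function on the upper half plane). -/
theorem tendsto_atImInfty_of_cuspLike {h : ℝ} (hh : 0 < h) {E : ℂ → ℂ} (hE : CuspLike h E) :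
    Tendsto (fun z : ℍ => E (z : ℂ)) atImInfty (𝓝 0) := by
  obtain ⟨C, A, -, hC0, hb⟩ := hE.exp_bound hh
  rw [tendsto_zero_iff_norm_tendsto_zero]
  have h1 : Tendsto (fun z : ℍ => C * Real.exp (-2 * Real.pi * (z : ℂ).im / h)) atImInfty
      (𝓝 0) := by
    have h2 : Tendsto (fun y : ℝ => C * Real.exp (-2 * Real.pi * y / h)) atTop (𝓝 (C * 0)) := by
      refine Tendsto.const_mul C (Real.tendsto_exp_atBot.comp ?_)
      refine Tendsto.atBot_div_const hh (Tendsto.const_mul_atTop_of_neg ?_ tendsto_id)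
      have := Real.pi_pos
      linarith
    rw [mul_zero] at h2
    have h3 : Tendsto (fun z : ℍ => (z : ℂ).im) atImInfty atTop := by
      have : (fun z : ℍ => (z : ℂ).im) = UpperHalfPlane.im := rfl
      rw [this]
      exact tendsto_comap
    exact h2.comp h3
  refine tendsto_of_tendsto_of_tendsto_of_le_of_le' tendsto_const_nhds h1
    (Eventually.of_forall fun z => norm_nonneg _) ?_
  rw [Filter.Eventually, atImInfty_mem]
  exact ⟨A, fun z hz => hb (z : ℂ) hz⟩

variable {N : ℕ}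

/-- A cusp form of level `Γ₀(N)` is cusp-like of period one. -/
theorem cuspLike_coe {k : ℤ} (f : CuspForm (Gamma0 N) k) : CuspLike 1 (⇑f ∘ ofComplex) :=
  cuspLike_of_cuspFormClass f one_pos (CongruenceSubgroup.one_mem_strictPeriods_Gamma0 N)

/-- The canonical primitive of a weight-two cusp form: `z ↦ -∫_z^{i∞} f`. -/
noncomputable def primH (f : CuspForm (Gamma0 N) 2) (z : ℍ) : ℂ :=
  prim (⇑f ∘ ofComplex) 1 (z : ℂ)

theorem primH_apply (f : CuspForm (Gamma0 N) 2) (z : ℍ) :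
    primH f z = prim (⇑f ∘ ofComplex) 1 (z : ℂ) := rfl

theorem primH_comp_ofComplex (f : CuspForm (Gamma0 N) 2) {z : ℂ} (hz : 0 < z.im) :
    (primH f ∘ ofComplex) z = prim (⇑f ∘ ofComplex) 1 z := by
  simp only [Function.comp_apply, primH_apply, ofComplex_apply_of_im_pos hz]

theorem hasDerivAt_primH (f : CuspForm (Gamma0 N) 2) (τ : ℍ) :
    HasDerivAt (primH f ∘ ofComplex) (f τ) (τ : ℂ) := by
  have hz : 0 < (τ : ℂ).im := τ.im_pos
  have h1 := (prim_spec one_pos (cuspLike_coe f) 1).1 (τ : ℂ) hz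
  simp only [Polynomial.eval_one, one_mul, Function.comp_apply, ofComplex_apply] at h1
  refine h1.congr_of_eventuallyEq ?_
  filter_upwards [isOpen_U.mem_nhds (show (τ : ℂ) ∈ U from hz)] with w hw
  exact primH_comp_ofComplex f hw

theorem tendsto_primH (f : CuspForm (Gamma0 N) 2) : Tendsto (primH f) atImInfty (𝓝 0) := by
  obtain ⟨E, hE, -, hEe⟩ := exists_cuspLike_eq_prim_one one_pos (cuspLike_coe f)
  refine (tendsto_atImInfty_of_cuspLike one_pos hE).congr fun z => ?_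
  rw [primH_apply, hEe (z : ℂ) z.im_pos]

theorem coe_smul_eq (γ : SL(2, ℤ)) (z : ℍ) :
    ((γ • z : ℍ) : ℂ) = ((((γ 0 0 : ℤ) : ℝ) : ℂ) * z + (((γ 0 1 : ℤ) : ℝ) : ℂ)) /
        ((((γ 1 0 : ℤ) : ℝ) : ℂ) * z + (((γ 1 1 : ℤ) : ℝ) : ℂ)) := by
  rw [UpperHalfPlane.coe_specialLinearGroup_apply]
  simp

theorem det_real (σ : SL(2, ℤ)) :
    ((σ 0 0 : ℤ) : ℝ) * ((σ 1 1 : ℤ) : ℝ) - ((σ 0 1 : ℤ) : ℝ) * ((σ 1 0 : ℤ) : ℝ) = 1 := by
  have h := σ.det_coe
  rw [Matrix.det_fin_two] at h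
  exact_mod_cast h

/-- Weight-two slash action of `SL(2, ℤ)`, as a formula. -/
theorem slash_two_apply (σ : SL(2, ℤ)) (G : ℍ → ℂ) (z : ℍ) :
    (G ∣[(2 : ℤ)] (mapGL ℝ σ)) z =
      G (σ • z) * ((((((σ 1 0 : ℤ) : ℝ) : ℂ) * z + (((σ 1 1 : ℤ) : ℝ) : ℂ)) ^ 2)⁻¹) := by
  have := ModularForm.SL_slash_apply (k := (2 : ℤ)) (f := G) σ z
  refine this.trans ?_
  have h2 : (-(2 : ℤ)) = -((2 : ℕ) : ℤ) := by norm_num
  rw [h2, zpow_neg, zpow_natCast]
  simp [denom]

/-- For every `δ ∈ SL(2, ℤ)`, `z ↦ primH f (δ • z)` is a constant plus a function tending to `0`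
at `i∞`. -/
theorem exists_tendsto_primH_smul [NeZero N] (f : CuspForm (Gamma0 N) 2) (δ : SL(2, ℤ)) :
    ∃ L : ℂ, Tendsto (fun w : ℍ => primH f (δ • w)) atImInfty (𝓝 L) := by
  obtain ⟨M, hM, hper⟩ := Subgroup.IsArithmetic.exists_nat_mem_strictPeriods_conj
    (Gamma0 N : Subgroup (GL (Fin 2) ℝ))
  have hMpos : (0 : ℝ) < (M : ℝ) := by exact_mod_cast hM
  set f' := CuspForm.translate f (mapGL ℝ δ) with hf'
  have hg : CuspLike 1 (⇑f ∘ ofComplex) := cuspLike_coe f
  have hg' : CuspLike (M : ℝ) (⇑f' ∘ ofComplex) := by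
    refine cuspLike_of_cuspFormClass f' hMpos ?_
    have := hper δ⁻¹
    simpa using this
  have hrel : ∀ z : ℂ, 0 < z.im →
      (1 : Polynomial ℂ).eval z * (⇑f' ∘ ofComplex) z =
      (1 : Polynomial ℂ).eval (((((δ 0 0 : ℤ) : ℝ) : ℂ) * z + (((δ 0 1 : ℤ) : ℝ) : ℂ)) /
          ((((δ 1 0 : ℤ) : ℝ) : ℂ) * z + (((δ 1 1 : ℤ) : ℝ) : ℂ))) *
        (⇑f ∘ ofComplex) (((((δ 0 0 : ℤ) : ℝ) : ℂ) * z + (((δ 0 1 : ℤ) : ℝ) : ℂ)) /
          ((((δ 1 0 : ℤ) : ℝ) : ℂ) * z + (((δ 1 1 : ℤ) : ℝ) : ℂ))) *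
        ((((((δ 1 0 : ℤ) : ℝ) : ℂ) * z + (((δ 1 1 : ℤ) : ℝ) : ℂ)) ^ 2)⁻¹) := by
    intro z hz
    have h1 : (f' : ℍ → ℂ) = (⇑f) ∣[(2 : ℤ)] (mapGL ℝ δ) := rfl
    have h2 := coe_smul_eq δ ⟨z, hz⟩
    simp only [Polynomial.eval_one, one_mul, Function.comp_apply]
    rw [← h2, ofComplex_apply, ofComplex_apply_of_im_pos hz, h1, slash_two_apply]
  obtain ⟨C, hC⟩ := prim_mobius_sub_const one_pos hMpos hg hg' 1 1 _ _ _ _ (det_real δ) hrel
  obtain ⟨E, hE, -, hEe⟩ := exists_cuspLike_eq_prim_one hMpos hg'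
  refine ⟨C, ?_⟩
  have h3 : Tendsto (fun w : ℍ => E (w : ℂ) + C) atImInfty (𝓝 (0 + C)) :=
    (tendsto_atImInfty_of_cuspLike hMpos hE).add_const C
  rw [zero_add] at h3
  refine h3.congr fun w => ?_
  have h4 := hC (w : ℂ) w.im_pos
  rw [primH_apply, coe_smul_eq, ← h4, hEe (w : ℂ) w.im_pos]
  ring

/-- `primH f` is an equivariant primitive for `Γ₀(N)`. -/
theorem isEquivariantPrimitive_primH (f : CuspForm (Gamma0 N) 2) :
    IsEquivariantPrimitive (Gamma0 N) (primH f) := by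
  intro γ
  have hg : CuspLike 1 (⇑f ∘ ofComplex) := cuspLike_coe f
  have hrel : ∀ z : ℂ, 0 < z.im →
      (1 : Polynomial ℂ).eval z * (⇑f ∘ ofComplex) z =
      (1 : Polynomial ℂ).eval ((((((γ : SL(2, ℤ)) 0 0 : ℤ) : ℝ) : ℂ) * z +
          ((((γ : SL(2, ℤ)) 0 1 : ℤ) : ℝ) : ℂ)) /
          (((((γ : SL(2, ℤ)) 1 0 : ℤ) : ℝ) : ℂ) * z + ((((γ : SL(2, ℤ)) 1 1 : ℤ) : ℝ) : ℂ))) *
        (⇑f ∘ ofComplex) ((((((γ : SL(2, ℤ)) 0 0 : ℤ) : ℝ) : ℂ) * z +
          ((((γ : SL(2, ℤ)) 0 1 : ℤ) : ℝ) : ℂ)) /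
          (((((γ : SL(2, ℤ)) 1 0 : ℤ) : ℝ) : ℂ) * z + ((((γ : SL(2, ℤ)) 1 1 : ℤ) : ℝ) : ℂ))) *
        (((((((γ : SL(2, ℤ)) 1 0 : ℤ) : ℝ) : ℂ) * z +
          ((((γ : SL(2, ℤ)) 1 1 : ℤ) : ℝ) : ℂ)) ^ 2)⁻¹) := by
    intro z hz
    have h1 : (⇑f) ∣[(2 : ℤ)] (mapGL ℝ (γ : SL(2, ℤ))) = ⇑f :=
      SlashInvariantFormClass.slash_action_eq f _ ⟨γ, γ.2, rfl⟩
    have h2 := coe_smul_eq (γ : SL(2, ℤ)) ⟨z, hz⟩
    simp only [Polynomial.eval_one, one_mul, Function.comp_apply]
    rw [← h2, ofComplex_apply, ofComplex_apply_of_im_pos hz]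
    have h3 := congrFun h1 ⟨z, hz⟩
    rw [slash_two_apply] at h3
    simpa using h3.symm
  obtain ⟨C, hC⟩ := prim_mobius_sub_const one_pos one_pos hg hg 1 1 _ _ _ _
    (det_real (γ : SL(2, ℤ))) hrel
  refine ⟨C, fun z => ?_⟩
  have h4 := hC (z : ℂ) z.im_pos
  rw [primH_apply, primH_apply, coe_smul_eq]
  exact h4

/-- The canonical primitive satisfies the prelude predicate. -/
theorem hasEquivariantPrimitive_primH [NeZero N] (f : CuspForm (Gamma0 N) 2) :
    HasEquivariantPrimitive N f (primH f) :=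
  ⟨hasDerivAt_primH f, tendsto_primH f, isEquivariantPrimitive_primH f,
    exists_tendsto_primH_smul f⟩

/-- (ES1) Existence of an equivariant primitive. -/
theorem exists_primitive [NeZero N] (f : CuspForm (Gamma0 N) 2) :
    ∃ F, HasEquivariantPrimitive N f F :=
  ⟨primH f, hasEquivariantPrimitive_primH f⟩

/-- Uniqueness: an equivariant primitive of `f` is the canonical one. -/
theorem eq_primH {f : CuspForm (Gamma0 N) 2} {F : ℍ → ℂ} (hF : HasEquivariantPrimitive N f F) :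
    F = primH f := by
  obtain ⟨C, hC⟩ := exists_const_of_hasDerivAt (φ := ⇑f ∘ ofComplex)
    (F := F ∘ ofComplex) (F' := primH f ∘ ofComplex)
    (fun z hz => by
      have := hF.1 ⟨z, hz⟩
      simpa [ofComplex_apply_of_im_pos hz] using this)
    (fun z hz => by
      have := hasDerivAt_primH f ⟨z, hz⟩
      simpa [ofComplex_apply_of_im_pos hz] using this)
  have hC' : ∀ z : ℍ, F z - primH f z = C := fun z => by
    have := hC (z : ℂ) z.im_pos
    simpa using this
  have h1 : Tendsto (fun z : ℍ => F z - primH f z) atImInfty (𝓝 (0 - 0)) :=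
    hF.2.1.sub (tendsto_primH f)
  rw [sub_zero] at h1
  have h2 : Tendsto (fun z : ℍ => F z - primH f z) atImInfty (𝓝 C) :=
    tendsto_const_nhds.congr fun z => (hC' z).symm
  have hC0 : C = 0 := tendsto_nhds_unique h2 h1
  funext z
  have := hC' z
  rw [hC0, sub_eq_zero] at this
  exact this

/-- (ES1) The period map is computed by any equivariant primitive. -/
theorem periodMap_eq_of_primitive {f : CuspForm (Gamma0 N) 2} {F : ℍ → ℂ}
    (hF : HasEquivariantPrimitive N f F) : periodMap N f = hF.2.2.1.periodHom := by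
  obtain ⟨F₀, h₀, he⟩ := periodMap_def N f hF
  rw [he]
  have e1 : F₀ = primH f := eq_primH h₀
  have e2 : F = primH f := eq_primH hF
  subst e2
  subst e1
  rfl

/-- The period map in terms of the canonical primitive, at an arbitrary base point. -/
theorem periodMap_apply [NeZero N] (f : CuspForm (Gamma0 N) 2) (γ : Gamma0 N) (z : ℍ) :
    periodMap N f (Additive.ofMul γ) = primH f ((γ : SL(2, ℤ)) • z) - primH f z := by
  rw [periodMap_eq_of_primitive (hasEquivariantPrimitive_primH f),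
    IsEquivariantPrimitive.periodHom_apply]
  exact ((isEquivariantPrimitive_primH f).sub_eq_period γ z).symm

theorem primH_add (f g : CuspForm (Gamma0 N) 2) (z : ℍ) :
    primH (f + g) z = primH f z + primH g z := by
  rw [primH_apply, primH_apply, primH_apply,
    ← prim_add_fun one_pos (cuspLike_coe f) (cuspLike_coe g) 1 z.im_pos]
  rfl

theorem primH_smul (c : ℂ) (f : CuspForm (Gamma0 N) 2) (z : ℍ) :
    primH (c • f) z = c * primH f z := by
  rw [primH_apply, primH_apply, ← prim_smul_fun one_pos (cuspLike_coe f) c 1 z.im_pos]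
  rfl

/-- (ES1) The prelude period map is linear. -/
theorem existsPeriodMapLinear [NeZero N] : ExistsPeriodMapLinear N := by
  refine ⟨{ toFun := fun f => periodMap N f, map_add' := fun f g => ?_,
            map_smul' := fun c f => ?_ }, fun f => rfl⟩
  · refine AddMonoidHom.ext fun γ => ?_
    have h := periodMap_apply (f + g) (Additive.toMul γ) UpperHalfPlane.I
    have hf := periodMap_apply f (Additive.toMul γ) UpperHalfPlane.I
    have hg := periodMap_apply g (Additive.toMul γ) UpperHalfPlane.I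
    simp only [ofMul_toMul] at h hf hg
    rw [AddMonoidHom.add_apply, h, hf, hg, primH_add, primH_add]
    ring
  · refine AddMonoidHom.ext fun γ => ?_
    have h := periodMap_apply (c • f) (Additive.toMul γ) UpperHalfPlane.I
    have hf := periodMap_apply f (Additive.toMul γ) UpperHalfPlane.I
    simp only [ofMul_toMul] at h hf
    rw [RingHom.id_apply, AddMonoidHom.smul_apply, h, hf, primH_smul, primH_smul, smul_eq_mul]
    ring

end Fermat.Agent.S21.Primitive
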