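import Fermat.Agent.S21.Primitive
import Fermat.Agent.S21.Parabolic
import Fermat.Agent.S21.ParabolicDim

/-!
# S21 (project ES): assembly

`result_of`: the Eichler–Shimura statement S21 from

* `hinj` (ES3): `(1 ± ι) P f = 0 ⟹ f = 0`,
* `hdim` (S20): `dim S₂(Γ₀(N)) = g(N)`,

using ES1 (`existsPeriodMapLinear`), ES2 (`periodMap_mem_parabolicHoms`) and ES4
(`finrank_parabolicHoms_le`).
-/

set_option autoImplicit false

open CongruenceSubgroup ModularCurve ModularCurve.Period
open scoped MatrixGroups

namespace Fermat.Agent.S21.Assembly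

variable (N : ℕ) [NeZero N]

theorem result_of
    (hinj : ∀ f : CuspForm (Gamma0 N) 2,
      (periodMap N f + charInvolution N ℂ ℂ (periodMap N f) = 0 → f = 0) ∧
      (periodMap N f - charInvolution N ℂ ℂ (periodMap N f) = 0 → f = 0))
    (hdim : (Module.finrank ℂ (CuspForm (Gamma0 N) 2) : ℚ) = ModularCurve.genusFormula N) :
    Function.Injective (ModularCurve.periodHomPair N)
      ∧ LinearMap.range (ModularCurve.periodHomPair N)
          = ModularCurve.Period.parabolicHoms ℂ (Gamma0 N) ℂ := by
  obtain ⟨pml, hpml, hdef⟩ :=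
    ModularCurve.periodHomPair_def N (Fermat.Agent.S21.Primitive.existsPeriodMapLinear (N := N))
  set ι := charInvolution N ℂ ℂ with hι
  have hιι : ∀ ψ : Additive (Gamma0 N) →+ ℂ, ι (ι ψ) = ψ :=
    fun ψ => charInvolution_charInvolution N ℂ ℂ ψ
  have hP : ∀ f g : CuspForm (Gamma0 N) 2,
      ModularCurve.periodHomPair N (f, g) = (pml f + ι (pml f)) + (pml g - ι (pml g)) := by
    intro f g
    rw [hdef]
    simp [LinearMap.coprod_apply]
  -- injectivity
  have hinjP : Function.Injective (ModularCurve.periodHomPair N) := by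
    rw [← LinearMap.ker_eq_bot, LinearMap.ker_eq_bot']
    rintro ⟨f, g⟩ h
    rw [hP] at h
    have h' := congrArg ι h
    simp only [map_add, map_sub, hιι, map_zero] at h'
    have hf : pml f + ι (pml f) = 0 := by
      have h2 : (2 : ℂ) • (pml f + ι (pml f)) = 0 := by
        rw [two_smul]
        calc (pml f + ι (pml f)) + (pml f + ι (pml f))
            = ((pml f + ι (pml f)) + (pml g - ι (pml g)))
              + ((ι (pml f) + pml f) + (ι (pml g) - pml g)) := by abel
          _ = 0 := by rw [h, h', add_zero]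
      exact (smul_eq_zero.mp h2).resolve_left two_ne_zero
    have hg : pml g - ι (pml g) = 0 := by
      rw [hf, zero_add] at h
      exact h
    rw [hpml] at hf hg
    rw [(hinj f).1 hf, (hinj g).2 hg]
    rfl
  refine ⟨hinjP, ?_⟩
  -- range ⊆ parabolic
  have hle : LinearMap.range (ModularCurve.periodHomPair N)
      ≤ ModularCurve.Period.parabolicHoms ℂ (Gamma0 N) ℂ := by
    rintro ψ ⟨⟨f, g⟩, rfl⟩
    rw [hP, hpml, hpml]
    have hf := Fermat.Agent.S21.Parabolic.periodMap_mem_parabolicHoms N f
    have hg := Fermat.Agent.S21.Parabolic.periodMap_mem_parabolicHoms N g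
    exact Submodule.add_mem _
      (Submodule.add_mem _ hf (charInvolution_mem_parabolicHoms N ℂ ℂ hf))
      (Submodule.sub_mem _ hg (charInvolution_mem_parabolicHoms N ℂ ℂ hg))
  obtain ⟨hfd, hbound⟩ := Fermat.Agent.S21.ParabolicDim.finrank_parabolicHoms_le N
  -- `S₂` is finite-dimensional
  haveI hS2 : FiniteDimensional ℂ (CuspForm (Gamma0 N) 2 × CuspForm (Gamma0 N) 2) := by
    let φ : (CuspForm (Gamma0 N) 2 × CuspForm (Gamma0 N) 2) →ₗ[ℂ]
        ModularCurve.Period.parabolicHoms ℂ (Gamma0 N) ℂ :=
      LinearMap.codRestrict _ (ModularCurve.periodHomPair N)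
        (fun p => hle (LinearMap.mem_range_self _ p))
    have hφ : Function.Injective φ := by
      intro p q hpq
      apply hinjP
      exact congrArg Subtype.val hpq
    exact FiniteDimensional.of_injective φ hφ
  haveI : FiniteDimensional ℂ (CuspForm (Gamma0 N) 2) :=
    FiniteDimensional.of_injective (LinearMap.inl ℂ (CuspForm (Gamma0 N) 2) (CuspForm (Gamma0 N) 2))
      LinearMap.inl_injective
  have hrange : Module.finrank ℂ (LinearMap.range (ModularCurve.periodHomPair N))
      = Module.finrank ℂ (CuspForm (Gamma0 N) 2) + Module.finrank ℂ (CuspForm (Gamma0 N) 2) := by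
    rw [LinearMap.finrank_range_of_inj hinjP, Module.finrank_prod]
  have hmono := Submodule.finrank_mono hle
  have heq : Module.finrank ℂ (LinearMap.range (ModularCurve.periodHomPair N))
      = Module.finrank ℂ (ModularCurve.Period.parabolicHoms ℂ (Gamma0 N) ℂ) := by
    apply le_antisymm hmono
    have h1 : (Module.finrank ℂ (ModularCurve.Period.parabolicHoms ℂ (Gamma0 N) ℂ) : ℚ)
        ≤ (Module.finrank ℂ (LinearMap.range (ModularCurve.periodHomPair N)) : ℚ) := by
      rw [hrange]
      push_cast
      linarith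
    exact_mod_cast h1
  exact Submodule.eq_of_le_of_finrank_eq hle heq

end Fermat.Agent.S21.Assembly
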