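import Fermat.Agent.S21.RealPeriods
import Fermat.Agent.S21.Primitive

/-!
# Injectivity input for Eichler–Shimura (S21, Project ES, slice ES3b)

For `f ∈ S₂(Γ₀(N))` with period homomorphism `P f` and the involution `ι` (conjugation by
`diag(1,-1)`): `(1 + ι) P f = 0 → f = 0` and `(1 - ι) P f = 0 → f = 0`.

We never construct the conjugate cusp form: with `F` the primitive of `f` and
`cj F τ = - conj (F (-conj τ))`, the two holomorphic functions `F ± cj F`, `i (F ∓ cj F)` have real
periods, hence zero derivative by `RealPeriods.Good.hasDerivAt_zero`; this gives two values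
`± f τ` for the derivative of `cj F`, so `f τ = 0`.
-/

set_option autoImplicit false

open UpperHalfPlane CongruenceSubgroup Filter Topology Complex ModularCurve ModularCurve.Period

open scoped MatrixGroups Modular Manifold ComplexConjugate ModularForm

namespace Fermat.Agent.S21.ConjForm

open Fermat.Agent.S21.RealPeriods Fermat.Agent.S21.Primitive

/-- The reflected function `τ ↦ - conj (F (-conj τ))`. -/
noncomputable def cj (F : ℍ → ℂ) : ℍ → ℂ := fun τ => -conj (F (J • τ))

theorem cj_apply (F : ℍ → ℂ) (τ : ℍ) : cj F τ = -conj (F (J • τ)) := rfl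

theorem cj_eq_neg_slash (F : ℍ → ℂ) : cj F = -(F ∣[(0 : ℤ)] J) := by
  funext τ
  simp [cj, ModularForm.slash_apply]

theorem mdifferentiable_cj {F : ℍ → ℂ} (hF : MDifferentiable 𝓘(ℂ) 𝓘(ℂ) F) :
    MDifferentiable 𝓘(ℂ) 𝓘(ℂ) (cj F) := by
  rw [cj_eq_neg_slash]
  exact (MDifferentiable.slash hF 0 J).neg

/-- `J γ = (j γ j) J` in `GL(2, ℝ)`. -/
theorem J_mul_mapGL (γ : SL(2, ℤ)) :
    J * Matrix.SpecialLinearGroup.mapGL ℝ γ
      = Matrix.SpecialLinearGroup.mapGL ℝ (jConjSL γ) * J := by
  apply Units.ext
  ext i j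
  fin_cases i <;> fin_cases j <;>
    simp [Matrix.mul_apply, Fin.sum_univ_two, jConjMat, Matrix.SpecialLinearGroup.mapGL]

theorem J_smul_smul (γ : SL(2, ℤ)) (τ : ℍ) : J • (γ • τ) = jConjSL γ • (J • τ) := by
  show J • (Matrix.SpecialLinearGroup.mapGL ℝ γ • τ)
    = Matrix.SpecialLinearGroup.mapGL ℝ (jConjSL γ) • (J • τ)
  rw [← mul_smul, ← mul_smul, J_mul_mapGL]

theorem im_J_smul (τ : ℍ) : (J • τ).im = τ.im := by
  have h := congrArg Complex.im (coe_J_smul τ)
  simpa using h

theorem tendsto_J_smul : Tendsto (fun w : ℍ => J • w) atImInfty atImInfty := by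
  rw [atImInfty, tendsto_comap_iff]
  have : (UpperHalfPlane.im ∘ fun w : ℍ => J • w) = UpperHalfPlane.im := by
    funext w
    exact im_J_smul w
  rw [this]
  exact tendsto_comap

variable {N : ℕ} {F G : ℍ → ℂ}

theorem cj_smul_sub (hF : IsEquivariantPrimitive (Gamma0 N) F) (γ : Gamma0 N) (τ : ℍ) :
    cj F ((γ : SL(2, ℤ)) • τ) - cj F τ = -conj (hF.period (jConjGamma0 N γ)) := by
  have h := hF.sub_eq_period (jConjGamma0 N γ) (J • τ)
  rw [jConjGamma0_coe, ← J_smul_smul] at h
  rw [cj_apply, cj_apply, ← h]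
  simp only [map_sub]
  ring

theorem good_cj (hF : Good N F) : Good N (cj F) where
  mdiff := mdifferentiable_cj hF.mdiff
  equiv := fun γ => ⟨-conj (hF.equiv.period (jConjGamma0 N γ)), fun z => cj_smul_sub hF.equiv γ z⟩
  lim := by
    intro δ
    obtain ⟨L, hL⟩ := hF.lim (jConjSL δ)
    refine ⟨-conj L, ?_⟩
    have h1 : Tendsto (fun w : ℍ => F (jConjSL δ • (J • w))) atImInfty (𝓝 L) :=
      hL.comp tendsto_J_smul
    have h2 : Tendsto (fun w : ℍ => -conj (F (jConjSL δ • (J • w)))) atImInfty (𝓝 (-conj L)) :=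
      ((Complex.continuous_conj.tendsto L).comp h1).neg
    refine h2.congr fun w => ?_
    rw [cj_apply, J_smul_smul]

theorem good_add (hF : Good N F) (hG : Good N G) : Good N (fun τ => F τ + G τ) where
  mdiff := hF.mdiff.add hG.mdiff
  equiv := fun γ => ⟨hF.equiv.period γ + hG.equiv.period γ, fun z => by
    have h1 := hF.equiv.sub_eq_period γ z
    have h2 := hG.equiv.sub_eq_period γ z
    rw [← h1, ← h2]; ring⟩
  lim := by
    intro δ
    obtain ⟨L, hL⟩ := hF.lim δ
    obtain ⟨M, hM⟩ := hG.lim δ
    exact ⟨L + M, hL.add hM⟩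

theorem good_const_mul (c : ℂ) (hF : Good N F) : Good N (fun τ => c * F τ) where
  mdiff := mdifferentiable_const.mul hF.mdiff
  equiv := fun γ => ⟨c * hF.equiv.period γ, fun z => by
    have h1 := hF.equiv.sub_eq_period γ z
    rw [← h1]; ring⟩
  lim := by
    intro δ
    obtain ⟨L, hL⟩ := hF.lim δ
    exact ⟨c * L, hL.const_mul c⟩

theorem good_neg (hF : Good N F) : Good N (fun τ => -F τ) := by
  have := good_const_mul (-1) hF
  simpa using this

/-- The period of a good function, computed at any base point. -/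
theorem period_eq (hF : Good N F) (γ : Gamma0 N) (z : ℍ) :
    hF.equiv.period γ = F ((γ : SL(2, ℤ)) • z) - F z :=
  (hF.equiv.sub_eq_period γ z).symm

/-! ### The two injectivity statements -/

section Inj

variable [NeZero N] (f : CuspForm (Gamma0 N) 2)

theorem periodMap_eq_period (hG : Good N (primH f)) (γ : Gamma0 N) :
    periodMap N f (Additive.ofMul γ) = hG.equiv.period γ := by
  rw [periodMap_apply f γ UpperHalfPlane.I, period_eq hG γ UpperHalfPlane.I]

/-- Core: if the periods `p` of `f` satisfy `p (j γ j) = ε p γ` with `ε = ±1`, then `f = 0`. -/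
theorem eq_zero_of_sign (ε : ℂ) (hε : ε = 1 ∨ ε = -1)
    (h : ∀ γ : Gamma0 N, periodMap N f (Additive.ofMul (jConjGamma0 N γ))
      = ε * periodMap N f (Additive.ofMul γ)) : f = 0 := by
  have hF := hasEquivariantPrimitive_primH f
  set F := primH f with hFdef
  have hG : Good N F := good_of_primitive hF
  have hcj : Good N (cj F) := good_cj hG
  have hp : ∀ γ : Gamma0 N, hG.equiv.period (jConjGamma0 N γ) = ε * hG.equiv.period γ := by
    intro γ
    rw [← periodMap_eq_period f hG, ← periodMap_eq_period f hG]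
    exact h γ
  -- periods of `cj F`
  have hpc : ∀ γ : Gamma0 N, hcj.equiv.period γ = -conj (ε * hG.equiv.period γ) := by
    intro γ
    rw [period_eq hcj γ UpperHalfPlane.I, cj_smul_sub hG.equiv γ UpperHalfPlane.I, hp γ]
  have hεconj : conj ε = ε := by
    rcases hε with rfl | rfl <;> simp
  -- `H₁ = F - ε cj F` and `H₂ = i (F + ε cj F)` have real periods
  have hH₁ : Good N (fun τ => F τ + (-ε) * cj F τ) := good_add hG (good_const_mul (-ε) hcj)
  have hH₂ : Good N (fun τ => Complex.I * (F τ + ε * cj F τ)) :=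
    good_const_mul Complex.I (good_add hG (good_const_mul ε hcj))
  have hεε : ε * ε = 1 := by
    rcases hε with rfl | rfl <;> simp
  have hre₁ : ∀ γ : Gamma0 N, (hH₁.equiv.period γ).im = 0 := by
    intro γ
    have e : hH₁.equiv.period γ = hG.equiv.period γ + (-ε) * hcj.equiv.period γ := by
      rw [period_eq hH₁ γ UpperHalfPlane.I, period_eq hG γ UpperHalfPlane.I,
        period_eq hcj γ UpperHalfPlane.I]
      ring
    rw [e, hpc γ, map_mul, hεconj]
    have : hG.equiv.period γ + -ε * -(ε * conj (hG.equiv.period γ))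
        = hG.equiv.period γ + (ε * ε) * conj (hG.equiv.period γ) := by ring
    rw [this, hεε, one_mul]
    simp
  have hre₂ : ∀ γ : Gamma0 N, (hH₂.equiv.period γ).im = 0 := by
    intro γ
    have e : hH₂.equiv.period γ
        = Complex.I * (hG.equiv.period γ + ε * hcj.equiv.period γ) := by
      rw [period_eq hH₂ γ UpperHalfPlane.I, period_eq hG γ UpperHalfPlane.I,
        period_eq hcj γ UpperHalfPlane.I]
      ring
    rw [e, hpc γ, map_mul, hεconj]
    have : hG.equiv.period γ + ε * -(ε * conj (hG.equiv.period γ))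
        = hG.equiv.period γ - (ε * ε) * conj (hG.equiv.period γ) := by ring
    rw [this, hεε, one_mul]
    simp
  ext τ
  have d₁ := hH₁.hasDerivAt_zero hre₁ τ
  have d₂ := hH₂.hasDerivAt_zero hre₂ τ
  have dF : HasDerivAt (F ∘ ofComplex) (f τ) (τ : ℂ) := hF.1 τ
  -- two expressions for `ε cj F`
  have e₁ : HasDerivAt (fun z : ℂ => ε * cj F (ofComplex z)) (f τ - 0) (τ : ℂ) := by
    refine (dF.sub d₁).congr_of_eventuallyEq (Eventually.of_forall fun z => ?_)
    simp only [Pi.sub_apply, Function.comp_apply]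
    ring
  have e₂ : HasDerivAt (fun z : ℂ => ε * cj F (ofComplex z))
      (-Complex.I * 0 - f τ) (τ : ℂ) := by
    refine ((d₂.const_mul (-Complex.I)).sub dF).congr_of_eventuallyEq
      (Eventually.of_forall fun z => ?_)
    simp only [Pi.sub_apply, Function.comp_apply]
    have hI : Complex.I * Complex.I = -1 := Complex.I_mul_I
    linear_combination (F (ofComplex z) + ε * cj F (ofComplex z)) * hI
  have := e₁.unique e₂
  have h2 : (2 : ℂ) * f τ = 0 := by linear_combination this
  have h3 : f τ = 0 := by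
    rcases mul_eq_zero.mp h2 with h | h
    · exact absurd h two_ne_zero
    · exact h
  simpa using h3

/-- **ES3b** = the `hinj` hypothesis of `Assembly.result_of`. -/
theorem hinj (N : ℕ) [NeZero N] : ∀ f : CuspForm (Gamma0 N) 2,
    (periodMap N f + charInvolution N ℂ ℂ (periodMap N f) = 0 → f = 0) ∧
    (periodMap N f - charInvolution N ℂ ℂ (periodMap N f) = 0 → f = 0) := by
  intro f
  constructor
  · intro h
    refine eq_zero_of_sign f (-1) (Or.inr rfl) fun γ => ?_
    have := DFunLike.congr_fun h (Additive.ofMul γ)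
    rw [AddMonoidHom.add_apply, charInvolution_apply, AddMonoidHom.zero_apply] at this
    simp only [toMul_ofMul] at this
    linear_combination this
  · intro h
    refine eq_zero_of_sign f 1 (Or.inl rfl) fun γ => ?_
    have := DFunLike.congr_fun h (Additive.ofMul γ)
    rw [AddMonoidHom.sub_apply, charInvolution_apply, AddMonoidHom.zero_apply] at this
    simp only [toMul_ofMul] at this
    linear_combination -this

end Inj

end Fermat.Agent.S21.ConjForm
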