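/-
S21 (Eichler–Shimura), slice (ES3b) of PROJECT ES, middle piece (helper29):
if `fc z = conj (f (-conj z))` is again a cusp form, then `z ↦ -conj (F (-conj z))` (`F` the
canonical primitive of `f`) is the equivariant primitive of `fc`, hence
`ι (P f) = - conj ∘ P fc` for the character involution `ι` of the prelude.
-/
import Mathlib
import Fermat.Prelude.Def_ModularCurve_PeriodHomPair
import Fermat.Agent.S21.Primitive

set_option autoImplicit false

open UpperHalfPlane CongruenceSubgroup Filter Topology ModularCurve ModularCurve.Period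
open scoped MatrixGroups ComplexConjugate

namespace Fermat.Agent.S21.ConjPrim

open Fermat.Agent.S21.Primitive

/-- The anti-holomorphic involution `z ↦ -conj z` of the upper half plane. -/
noncomputable def jmap (z : ℍ) : ℍ := ⟨-conj (z : ℂ), by simpa using z.im_pos⟩

@[simp] theorem coe_jmap (z : ℍ) : ((jmap z : ℍ) : ℂ) = -conj (z : ℂ) := rfl

@[simp] theorem im_jmap (z : ℍ) : (jmap z).im = z.im := by
  show (-conj (z : ℂ)).im = _
  simp

@[simp] theorem jmap_jmap (z : ℍ) : jmap (jmap z) = z := by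
  apply UpperHalfPlane.ext
  simp

theorem ofComplex_neg_conj (z : ℍ) : ofComplex (-conj (z : ℂ)) = jmap z := by
  rw [← coe_jmap, ofComplex_apply]

theorem tendsto_jmap : Tendsto jmap atImInfty atImInfty := by
  unfold atImInfty
  rw [tendsto_comap_iff]
  have : (UpperHalfPlane.im ∘ jmap) = UpperHalfPlane.im := by
    funext w
    exact im_jmap w
  rw [this]
  exact tendsto_comap

/-- Compatibility of `z ↦ -conj z` with the Möbius action: conjugation by `diag(1,-1)`. -/
theorem jmap_smul (γ : SL(2, ℤ)) (z : ℍ) : jmap (γ • z) = jConjSL γ • jmap z := by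
  apply UpperHalfPlane.ext
  rw [coe_jmap, coe_smul_eq, coe_smul_eq, coe_jmap]
  have hd : (((γ 1 0 : ℤ) : ℝ) : ℂ) * (z : ℂ) + (((γ 1 1 : ℤ) : ℝ) : ℂ) ≠ 0 := by
    have := UpperHalfPlane.denom_ne_zero (Matrix.SpecialLinearGroup.mapGL ℝ γ) z
    simpa [UpperHalfPlane.denom] using this
  have hd' : (((γ 1 0 : ℤ) : ℝ) : ℂ) * conj (z : ℂ) + (((γ 1 1 : ℤ) : ℝ) : ℂ) ≠ 0 := by
    intro h
    apply hd
    have := congrArg conj h
    simpa using this
  have e00 : ((jConjSL γ) 0 0 : ℤ) = γ 0 0 := by rw [jConjSL_coe, jConjMat_apply_zero_zero]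
  have e01 : ((jConjSL γ) 0 1 : ℤ) = -γ 0 1 := by rw [jConjSL_coe, jConjMat_apply_zero_one]
  have e10 : ((jConjSL γ) 1 0 : ℤ) = -γ 1 0 := by rw [jConjSL_coe, jConjMat_apply_one_zero]
  have e11 : ((jConjSL γ) 1 1 : ℤ) = γ 1 1 := by rw [jConjSL_coe, jConjMat_apply_one_one]
  rw [e00, e01, e10, e11]
  simp only [map_div₀, map_add, map_mul, Complex.conj_ofReal, Int.cast_neg, Complex.ofReal_neg]
  have hd'' : -(((γ 1 0 : ℤ) : ℝ) : ℂ) * -conj (z : ℂ) + (((γ 1 1 : ℤ) : ℝ) : ℂ) ≠ 0 := by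
    have : -(((γ 1 0 : ℤ) : ℝ) : ℂ) * -conj (z : ℂ) + (((γ 1 1 : ℤ) : ℝ) : ℂ) =
        (((γ 1 0 : ℤ) : ℝ) : ℂ) * conj (z : ℂ) + (((γ 1 1 : ℤ) : ℝ) : ℂ) := by ring
    rw [this]; exact hd'
  field_simp
  ring

variable {N : ℕ}

/-- The candidate primitive of the conjugate form. -/
noncomputable def Fc (f : CuspForm (Gamma0 N) 2) (z : ℍ) : ℂ := -conj (primH f (jmap z))

theorem hasDerivAt_Fc (f : CuspForm (Gamma0 N) 2) (τ : ℍ) :
    HasDerivAt (Fc f ∘ ofComplex) (conj (f (jmap τ))) (τ : ℂ) := by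
  have h1 : HasDerivAt (primH f ∘ ofComplex) (f (jmap τ)) (-conj (τ : ℂ)) := by
    have := hasDerivAt_primH f (jmap τ)
    rwa [coe_jmap] at this
  -- `G w = Φ (-w)`
  have h2 : HasDerivAt (fun w : ℂ => (primH f ∘ ofComplex) (-w)) (-(f (jmap τ))) (conj (τ : ℂ)) := by
    have := h1.comp (conj (τ : ℂ)) (hasDerivAt_neg (conj (τ : ℂ)))
    rw [mul_neg_one] at this
    exact this
  have h3 : HasDerivAt (conj ∘ (fun w : ℂ => (primH f ∘ ofComplex) (-w)) ∘ conj)
      (conj (-(f (jmap τ)))) (τ : ℂ) := by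
    rw [hasDerivAt_conj_conj_iff]
    simpa using h2
  have h4 := h3.neg
  have e : -(conj (-(f (jmap τ)))) = conj (f (jmap τ)) := by simp
  rw [e] at h4
  refine h4.congr_of_eventuallyEq ?_
  filter_upwards [isOpen_upperHalfPlaneSet.mem_nhds τ.im_pos] with w hw
  have hw' : 0 < (-conj w).im := by simpa using hw
  simp only [Function.comp_apply, Pi.neg_apply, Fc]
  rw [ofComplex_apply_of_im_pos hw, ofComplex_apply_of_im_pos hw']
  rfl

theorem tendsto_Fc (f : CuspForm (Gamma0 N) 2) : Tendsto (Fc f) atImInfty (𝓝 0) := by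
  have h1 : Tendsto (fun z : ℍ => primH f (jmap z)) atImInfty (𝓝 0) :=
    (tendsto_primH f).comp tendsto_jmap
  have h2 : Tendsto (fun z : ℍ => -conj (primH f (jmap z))) atImInfty (𝓝 (-conj (0 : ℂ))) :=
    ((Complex.continuous_conj.tendsto (0 : ℂ)).comp h1).neg
  rw [map_zero, neg_zero] at h2
  exact h2

theorem Fc_smul_sub [NeZero N] (f : CuspForm (Gamma0 N) 2) (γ : Gamma0 N) (z : ℍ) :
    Fc f ((γ : SL(2, ℤ)) • z) - Fc f z =
      -conj (periodMap N f (Additive.ofMul (jConjGamma0 N γ))) := by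
  rw [Fc, Fc, jmap_smul, periodMap_apply f (jConjGamma0 N γ) (jmap z), jConjGamma0_coe]
  simp only [map_sub]
  ring

theorem isEquivariantPrimitive_Fc [NeZero N] (f : CuspForm (Gamma0 N) 2) :
    IsEquivariantPrimitive (Gamma0 N) (Fc f) := fun γ =>
  ⟨_, fun z => Fc_smul_sub f γ z⟩

theorem exists_tendsto_Fc_smul [NeZero N] (f : CuspForm (Gamma0 N) 2) (δ : SL(2, ℤ)) :
    ∃ L : ℂ, Tendsto (fun w : ℍ => Fc f (δ • w)) atImInfty (𝓝 L) := by
  obtain ⟨L, hL⟩ := exists_tendsto_primH_smul f (jConjSL δ)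
  refine ⟨-conj L, ?_⟩
  have h1 : Tendsto (fun w : ℍ => primH f (jConjSL δ • jmap w)) atImInfty (𝓝 L) :=
    hL.comp tendsto_jmap
  have h2 := ((Complex.continuous_conj.tendsto L).comp h1).neg
  refine h2.congr fun w => ?_
  simp only [Function.comp_apply, Fc, jmap_smul]

/-- `Fc f` is an equivariant primitive of any cusp form `fc` with `fc z = conj (f (-conj z))`. -/
theorem hasEquivariantPrimitive_Fc [NeZero N] (f fc : CuspForm (Gamma0 N) 2)
    (hfc : ∀ z : ℍ, fc z = conj (f (jmap z))) : HasEquivariantPrimitive N fc (Fc f) :=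
  ⟨fun τ => by rw [hfc τ]; exact hasDerivAt_Fc f τ, tendsto_Fc f, isEquivariantPrimitive_Fc f,
    exists_tendsto_Fc_smul f⟩

/-- **(ES3b), middle piece.**  The character involution on periods in terms of the conjugate
form. -/
theorem charInvolution_periodMap_of [NeZero N] (f fc : CuspForm (Gamma0 N) 2)
    (hfc : ∀ z : ℍ, fc z = conj (f (jmap z))) (γ : Additive (Gamma0 N)) :
    charInvolution N ℂ ℂ (periodMap N f) γ = -conj (periodMap N fc γ) := by
  have hprim : Fc f = primH fc := eq_primH (hasEquivariantPrimitive_Fc f fc hfc)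
  have h1 := periodMap_apply fc (Additive.toMul γ) UpperHalfPlane.I
  rw [ofMul_toMul, ← hprim, Fc_smul_sub] at h1
  rw [charInvolution_apply, h1]
  simp

/-- The same with the hypothesis in the `ofComplex` form. -/
theorem charInvolution_periodMap_of' [NeZero N] (f fc : CuspForm (Gamma0 N) 2)
    (hfc : ∀ z : ℍ, fc z = conj (f (ofComplex (-conj (z : ℂ))))) (γ : Additive (Gamma0 N)) :
    charInvolution N ℂ ℂ (periodMap N f) γ = -conj (periodMap N fc γ) :=
  charInvolution_periodMap_of f fc (fun z => by rw [hfc z, ofComplex_neg_conj]) γ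

end Fermat.Agent.S21.ConjPrim
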