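/-
S21 (Eichler–Shimura), slice (ES3b) of PROJECT ES, algebraic end (helper29):
from "real periods ⇒ zero" and the conjugate form `f ↦ fᶜ` with `ι (P f) = - conj ∘ P fᶜ`
deduce that `(1 ± ι) ∘ P` are injective.
-/
import Mathlib
import Fermat.Prelude.Def_ModularCurve_PeriodHomPair
import Fermat.Agent.S21.Primitive

set_option autoImplicit false

open UpperHalfPlane CongruenceSubgroup ModularCurve ModularCurve.Period
open scoped MatrixGroups ComplexConjugate

namespace Fermat.Agent.S21.InjAux

open Fermat.Agent.S21.Primitive

variable {N : ℕ} [NeZero N]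

theorem periodMap_add (f g : CuspForm (Gamma0 N) 2) :
    periodMap N (f + g) = periodMap N f + periodMap N g := by
  obtain ⟨pml, h⟩ := existsPeriodMapLinear (N := N)
  rw [← h, ← h, ← h, map_add]

theorem periodMap_smul (c : ℂ) (f : CuspForm (Gamma0 N) 2) :
    periodMap N (c • f) = c • periodMap N f := by
  obtain ⟨pml, h⟩ := existsPeriodMapLinear (N := N)
  rw [← h, ← h, map_smul]

theorem periodMap_sub (f g : CuspForm (Gamma0 N) 2) :
    periodMap N (f - g) = periodMap N f - periodMap N g := by
  obtain ⟨pml, h⟩ := existsPeriodMapLinear (N := N)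
  rw [← h, ← h, ← h, map_sub]

theorem periodMap_add_apply (f g : CuspForm (Gamma0 N) 2) (γ : Additive (Gamma0 N)) :
    periodMap N (f + g) γ = periodMap N f γ + periodMap N g γ := by
  rw [periodMap_add]; rfl

theorem periodMap_sub_apply (f g : CuspForm (Gamma0 N) 2) (γ : Additive (Gamma0 N)) :
    periodMap N (f - g) γ = periodMap N f γ - periodMap N g γ := by
  rw [periodMap_sub]; rfl

theorem periodMap_smul_apply (c : ℂ) (f : CuspForm (Gamma0 N) 2) (γ : Additive (Gamma0 N)) :
    periodMap N (c • f) γ = c * periodMap N f γ := by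
  rw [periodMap_smul]; rfl

omit [NeZero N] in
theorem eq_zero_of_add_of_sub {f g : CuspForm (Gamma0 N) 2} (h1 : f + g = 0) (h2 : f - g = 0) :
    f = 0 := by
  have h3 : (2 : ℂ) • f = 0 := by
    have : (2 : ℂ) • f = (f + g) + (f - g) := by
      rw [two_smul]; abel
    rw [this, h1, h2, add_zero]
  exact (smul_eq_zero.mp h3).resolve_left two_ne_zero

/-- **(ES3b), abstract form.**  Given a "conjugate form" operation `c` with
`ι (P f) = - conj ∘ P (c f)` and the vanishing of forms with real periods, both `(1 + ι) ∘ P` and
`(1 - ι) ∘ P` have trivial kernel. -/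
theorem injective_aux_of (c : CuspForm (Gamma0 N) 2 → CuspForm (Gamma0 N) 2)
    (hc : ∀ (f : CuspForm (Gamma0 N) 2) (γ : Additive (Gamma0 N)),
      charInvolution N ℂ ℂ (periodMap N f) γ = - conj (periodMap N (c f) γ))
    (hreal : ∀ f : CuspForm (Gamma0 N) 2,
      (∀ γ : Gamma0 N, (periodMap N f (Additive.ofMul γ)).im = 0) → f = 0)
    (f : CuspForm (Gamma0 N) 2) :
    (periodMap N f + charInvolution N ℂ ℂ (periodMap N f) = 0 → f = 0) ∧
    (periodMap N f - charInvolution N ℂ ℂ (periodMap N f) = 0 → f = 0) := by
  constructor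
  · intro h
    have hP : ∀ γ : Additive (Gamma0 N), periodMap N f γ = conj (periodMap N (c f) γ) := by
      intro γ
      have h1 := DFunLike.congr_fun h γ
      rw [AddMonoidHom.add_apply, hc f γ, AddMonoidHom.zero_apply] at h1
      linear_combination h1
    have hu : f + c f = 0 := by
      refine hreal _ fun γ => ?_
      rw [periodMap_add_apply, hP]
      simp
    have hw : Complex.I • (f - c f) = 0 := by
      refine hreal _ fun γ => ?_
      rw [periodMap_smul_apply, periodMap_sub_apply, hP]
      simp
    have hw' : f - c f = 0 := (smul_eq_zero.mp hw).resolve_left Complex.I_ne_zero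
    exact eq_zero_of_add_of_sub hu hw'
  · intro h
    have hP : ∀ γ : Additive (Gamma0 N), periodMap N f γ = - conj (periodMap N (c f) γ) := by
      intro γ
      have h1 := DFunLike.congr_fun h γ
      rw [AddMonoidHom.sub_apply, hc f γ, AddMonoidHom.zero_apply] at h1
      linear_combination h1
    have hu : f - c f = 0 := by
      refine hreal _ fun γ => ?_
      rw [periodMap_sub_apply, hP]
      simp
    have hw : Complex.I • (f + c f) = 0 := by
      refine hreal _ fun γ => ?_
      rw [periodMap_smul_apply, periodMap_add_apply, hP]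
      simp
    have hw' : f + c f = 0 := (smul_eq_zero.mp hw).resolve_left Complex.I_ne_zero
    exact eq_zero_of_add_of_sub hw' hu

end Fermat.Agent.S21.InjAux
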