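import Mathlib
import Fermat.Prelude.Def_ModularCurve_PeriodHomPair

/-!
# Real periods force a weight-two cusp form to vanish (S21, Project ES, slice ES3a)

If `F` is an equivariant primitive of `f ∈ S₂(Γ₀(N))` all of whose periods are real, then `f = 0`.
Proof: `g = exp (-i F)` has `Γ₀(N)`-invariant absolute value `exp (Im F)`; a compactness argument
on finitely many translates of the standard fundamental domain shows that `Im F` attains its
supremum either inside the upper half plane or "at a cusp"; in both cases the maximum modulus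
principle makes `g` constant.
-/

set_option autoImplicit false

open UpperHalfPlane CongruenceSubgroup Filter Topology Complex ModularCurve ModularCurve.Period

open scoped MatrixGroups Modular

namespace Fermat.Agent.S21.RealPeriods

/-! ### Attaining the supremum on the standard fundamental domain -/

/-- The part of the standard fundamental domain below height `Y` is compact. -/
theorem isCompact_fd_inter (Y : ℝ) : IsCompact {w : ℍ | w ∈ 𝒟 ∧ w.im ≤ Y} := by
  have hemb : Topology.IsEmbedding ((↑) : ℍ → ℂ) := UpperHalfPlane.isOpenEmbedding_coe.isEmbedding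
  rw [hemb.isCompact_iff]
  -- the image is a closed bounded subset of ℂ
  have himg : ((↑) : ℍ → ℂ) '' {w : ℍ | w ∈ 𝒟 ∧ w.im ≤ Y}
      = {z : ℂ | 1 ≤ Complex.normSq z ∧ |z.re| ≤ 1 / 2 ∧ z.im ≤ Y ∧ 0 ≤ z.im} := by
    ext z
    constructor
    · rintro ⟨w, ⟨hw, hwY⟩, rfl⟩
      exact ⟨hw.1, hw.2, hwY, w.im_pos.le⟩
    · rintro ⟨h1, h2, h3, h4⟩
      have hpos : 0 < z.im := by
        rcases h4.lt_or_eq with h | h
        · exact h
        · exfalso
          have hre : z.re ^ 2 ≤ 1 / 4 := by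
            have := abs_le.mp h2
            nlinarith [this.1, this.2]
          have : Complex.normSq z = z.re ^ 2 := by
            rw [Complex.normSq_apply, ← h]; ring
          rw [this] at h1
          linarith
      exact ⟨⟨z, hpos⟩, ⟨⟨h1, h2⟩, h3⟩, rfl⟩
  rw [himg]
  apply Metric.isCompact_of_isClosed_isBounded
  · have c1 : IsClosed {z : ℂ | 1 ≤ Complex.normSq z} :=
      isClosed_le continuous_const Complex.continuous_normSq
    have c2 : IsClosed {z : ℂ | |z.re| ≤ 1 / 2} :=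
      isClosed_le (continuous_abs.comp Complex.continuous_re) continuous_const
    have c3 : IsClosed {z : ℂ | z.im ≤ Y} := isClosed_le Complex.continuous_im continuous_const
    have c4 : IsClosed {z : ℂ | 0 ≤ z.im} := isClosed_le continuous_const Complex.continuous_im
    exact c1.inter (c2.inter (c3.inter c4))
  · rw [Metric.isBounded_iff_subset_closedBall (0 : ℂ)]
    refine ⟨1 / 2 + |Y|, fun z hz => ?_⟩
    obtain ⟨-, h2, h3, h4⟩ := hz
    rw [mem_closedBall_zero_iff]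
    calc ‖z‖ ≤ |z.re| + |z.im| := Complex.norm_le_abs_re_add_abs_im z
      _ ≤ 1 / 2 + |Y| := by
        gcongr

/-- A continuous function on `ℍ` with a limit at `i∞` either attains its supremum over the standard
fundamental domain or is bounded there by its limit. -/
theorem exists_max_or_le_limit {v : ℍ → ℝ} (hv : Continuous v) {ℓ : ℝ}
    (hℓ : Tendsto v atImInfty (𝓝 ℓ)) :
    (∃ w₀ ∈ 𝒟, ∀ w ∈ 𝒟, v w ≤ v w₀) ∨ (∀ w ∈ 𝒟, v w ≤ ℓ) := by
  by_cases h : ∀ w ∈ 𝒟, v w ≤ ℓ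
  · exact Or.inr h
  · left
    simp only [not_forall, not_le] at h
    obtain ⟨w₁, hw₁, hlt⟩ := h
    have hev : ∀ᶠ w in atImInfty, v w < v w₁ := hℓ.eventually (gt_mem_nhds hlt)
    obtain ⟨Y, hY⟩ := (atImInfty_mem _).mp hev
    have hK := isCompact_fd_inter Y
    have hne : {w : ℍ | w ∈ 𝒟 ∧ w.im ≤ Y}.Nonempty := by
      refine ⟨w₁, hw₁, ?_⟩
      by_contra hcon
      exact lt_irrefl (v w₁) (hY w₁ (not_le.mp hcon).le)
    obtain ⟨w₀, hw₀, hmax⟩ := hK.exists_isMaxOn hne hv.continuousOn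
    refine ⟨w₀, hw₀.1, fun w hw => ?_⟩
    by_cases hwY : w.im ≤ Y
    · exact hmax ⟨hw, hwY⟩
    · have h1 : v w < v w₁ := hY w (not_le.mp hwY).le
      have h2 : v w₁ ≤ v w₀ := hmax ⟨hw₁, by
        by_contra hcon
        exact lt_irrefl (v w₁) (hY w₁ (not_le.mp hcon).le)⟩
      exact (h1.trans_le h2).le

/-! ### Coset representatives and the global supremum -/

theorem det_mapGL_pos (γ : SL(2, ℤ)) :
    0 < (Matrix.SpecialLinearGroup.mapGL ℝ γ).det.val := by
  have : (Matrix.SpecialLinearGroup.mapGL ℝ γ).det = 1 := by simp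
  rw [this]
  simp

theorem continuous_sl_smul (γ : SL(2, ℤ)) : Continuous fun τ : ℍ => γ • τ :=
  continuous_const_smul (Matrix.SpecialLinearGroup.mapGL ℝ γ)

/-- A finite set of right coset representatives of `Γ₀(N)` in `SL(2, ℤ)`. -/
theorem exists_reps (N : ℕ) [NeZero N] :
    ∃ R : Finset SL(2, ℤ), R.Nonempty ∧
      ∀ σ : SL(2, ℤ), ∃ γ ∈ Gamma0 N, ∃ δ ∈ R, σ = γ * δ := by
  classical
  have : Fintype (SL(2, ℤ) ⧸ Gamma0 N) := Subgroup.fintypeQuotientOfFiniteIndex
  refine ⟨Finset.univ.image fun q : SL(2, ℤ) ⧸ Gamma0 N => (Quotient.out q)⁻¹, ?_, fun σ => ?_⟩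
  · exact ⟨_, Finset.mem_image_of_mem _ (Finset.mem_univ (QuotientGroup.mk 1))⟩
  · obtain ⟨h, hh⟩ := QuotientGroup.mk_out_eq_mul (Gamma0 N) σ⁻¹
    refine ⟨h, h.2, (Quotient.out (QuotientGroup.mk σ⁻¹ : SL(2, ℤ) ⧸ Gamma0 N))⁻¹,
      Finset.mem_image_of_mem _ (Finset.mem_univ _), ?_⟩
    rw [hh]
    group

/-- A continuous `Γ₀(N)`-invariant real function on `ℍ` having limits along all cusps either
attains its supremum, or is bounded by its limit along some cusp. -/
theorem exists_max_or_cusp {N : ℕ} [NeZero N] {u : ℍ → ℝ} (hu : Continuous u)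
    (hinv : ∀ γ ∈ Gamma0 N, ∀ τ : ℍ, u (γ • τ) = u τ)
    (hlim : ∀ δ : SL(2, ℤ), ∃ ℓ : ℝ, Tendsto (fun w : ℍ => u (δ • w)) atImInfty (𝓝 ℓ)) :
    (∃ τ₀ : ℍ, ∀ τ, u τ ≤ u τ₀) ∨
      ∃ (δ : SL(2, ℤ)) (ℓ : ℝ), Tendsto (fun w : ℍ => u (δ • w)) atImInfty (𝓝 ℓ) ∧ ∀ τ, u τ ≤ ℓ := by
  classical
  choose ℓ hℓ using hlim
  obtain ⟨R, hRne, hR⟩ := exists_reps N
  have hcont : ∀ δ : SL(2, ℤ), Continuous fun w : ℍ => u (δ • w) :=
    fun δ => hu.comp (continuous_sl_smul δ)
  have halt := fun δ : SL(2, ℤ) => exists_max_or_le_limit (hcont δ) (hℓ δ)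
  let m : SL(2, ℤ) → ℝ := fun δ =>
    if h : ∃ w₀ ∈ 𝒟, ∀ w ∈ 𝒟, u (δ • w) ≤ u (δ • w₀) then u (δ • h.choose) else ℓ δ
  have hm : ∀ δ : SL(2, ℤ), ∀ w ∈ 𝒟, u (δ • w) ≤ m δ := by
    intro δ w hw
    by_cases h : ∃ w₀ ∈ 𝒟, ∀ w ∈ 𝒟, u (δ • w) ≤ u (δ • w₀)
    · simp only [m, dif_pos h]
      exact h.choose_spec.2 w hw
    · simp only [m, dif_neg h]
      rcases halt δ with h' | h'
      · exact absurd h' h
      · exact h' w hw
  obtain ⟨δs, hδs, hmax⟩ := Finset.exists_max_image R m hRne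
  have hbound : ∀ τ : ℍ, u τ ≤ m δs := by
    intro τ
    obtain ⟨σ, hσ⟩ := ModularGroup.exists_smul_mem_fd τ
    obtain ⟨γ, hγ, δ, hδ, hσδ⟩ := hR σ⁻¹
    have hτ : τ = γ • δ • (σ • τ) := by
      rw [← mul_smul, ← mul_smul, ← hσδ, inv_mul_cancel, one_smul]
    calc u τ = u (γ • δ • (σ • τ)) := by rw [← hτ]
      _ = u (δ • (σ • τ)) := hinv γ hγ _
      _ ≤ m δ := hm δ _ hσ
      _ ≤ m δs := hmax δ hδ
  by_cases h : ∃ w₀ ∈ 𝒟, ∀ w ∈ 𝒟, u (δs • w) ≤ u (δs • w₀)
  · left
    refine ⟨δs • h.choose, fun τ => ?_⟩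
    have := hbound τ
    simpa only [m, dif_pos h] using this
  · right
    refine ⟨δs, ℓ δs, hℓ δs, fun τ => ?_⟩
    have := hbound τ
    simpa only [m, dif_neg h] using this

/-! ### The primitive and the exponential -/

section Main

open scoped Manifold

variable {N : ℕ} {F : ℍ → ℂ}

/-- The properties of a primitive that the maximum-modulus argument uses: holomorphic, constant
differences under `Γ₀(N)`, limits along all cusps. -/
structure Good (N : ℕ) (F : ℍ → ℂ) : Prop where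
  mdiff : MDifferentiable 𝓘(ℂ) 𝓘(ℂ) F
  equiv : IsEquivariantPrimitive (Gamma0 N) F
  lim : ∀ δ : SL(2, ℤ), ∃ L : ℂ, Tendsto (fun w : ℍ => F (δ • w)) atImInfty (𝓝 L)

theorem Good.continuous (hF : Good N F) : Continuous F := hF.mdiff.continuous

theorem Good.differentiableAt (hF : Good N F) (τ : ℍ) :
    DifferentiableAt ℂ (F ∘ ofComplex) (τ : ℂ) :=
  UpperHalfPlane.mdifferentiableAt_iff.mp (hF.mdiff τ)

theorem Good.im_smul_eq (hF : Good N F)
    (hre : ∀ γ : Gamma0 N, (hF.equiv.period γ).im = 0) (γ : SL(2, ℤ)) (hγ : γ ∈ Gamma0 N) (τ : ℍ) :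
    (F (γ • τ)).im = (F τ).im := by
  have h := hF.equiv.sub_eq_period ⟨γ, hγ⟩ τ
  have h2 := congrArg Complex.im h
  rw [Complex.sub_im, hre] at h2
  exact sub_eq_zero.mp h2

theorem norm_exp_neg_I_mul (w : ℂ) : ‖cexp (-Complex.I * w)‖ = Real.exp w.im := by
  rw [Complex.norm_exp]
  congr 1
  simp

/-- If `exp (-i F)` is constant then `F' = 0`. -/
theorem Good.hasDerivAt_zero_of_exp_const (hF : Good N F) {c : ℂ}
    (hc : ∀ τ : ℍ, cexp (-Complex.I * F τ) = c) (τ : ℍ) :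
    HasDerivAt (F ∘ ofComplex) 0 (τ : ℂ) := by
  have hFd := (hF.differentiableAt τ).hasDerivAt
  set d := deriv (F ∘ ofComplex) (τ : ℂ) with hd'
  have hd : HasDerivAt (fun z : ℂ => cexp (-Complex.I * (F ∘ ofComplex) z))
      (cexp (-Complex.I * (F ∘ ofComplex) τ) * (-Complex.I * d)) τ :=
    (hFd.const_mul (-Complex.I)).cexp
  have hev : (fun z : ℂ => cexp (-Complex.I * (F ∘ ofComplex) z)) =ᶠ[𝓝 (τ : ℂ)] fun _ => c := by
    have hopen : IsOpen {z : ℂ | 0 < z.im} := isOpen_lt continuous_const Complex.continuous_im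
    filter_upwards [hopen.mem_nhds τ.im_pos] with z hz
    exact hc (ofComplex z)
  have hd0 : HasDerivAt (fun z : ℂ => cexp (-Complex.I * (F ∘ ofComplex) z)) 0 τ :=
    (hasDerivAt_const (τ : ℂ) c).congr_of_eventuallyEq hev
  have := hd.unique hd0
  have h3 : -Complex.I * d = 0 := by
    rcases mul_eq_zero.mp this with h | h
    · exact absurd h (Complex.exp_ne_zero _)
    · exact h
  have h4 : d = 0 := by
    rcases mul_eq_zero.mp h3 with h | h
    · exact absurd h (by simp)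
    · exact h
  rw [h4] at hFd
  exact hFd

/-- Case 1: the supremum of `Im F` is attained. -/
theorem Good.exp_const_of_max (hF : Good N F) {τ₀ : ℍ}
    (hmax : ∀ τ : ℍ, (F τ).im ≤ (F τ₀).im) :
    ∀ τ : ℍ, cexp (-Complex.I * F τ) = cexp (-Complex.I * F τ₀) := by
  set G : ℂ → ℂ := fun z => cexp (-Complex.I * F (ofComplex z)) with hG
  have hopen : IsOpen {z : ℂ | 0 < z.im} := isOpen_lt continuous_const Complex.continuous_im
  have hconn : IsPreconnected {z : ℂ | 0 < z.im} := (convex_halfSpace_im_gt 0).isPreconnected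
  have hdiff : DifferentiableOn ℂ G {z : ℂ | 0 < z.im} := by
    intro z hz
    have := hF.differentiableAt ⟨z, hz⟩
    exact ((this.const_mul (-Complex.I)).cexp).differentiableWithinAt
  have hmaxG : IsMaxOn (norm ∘ G) {z : ℂ | 0 < z.im} (τ₀ : ℂ) := by
    intro z _
    simp only [Function.comp, hG, norm_exp_neg_I_mul, ofComplex_apply]
    exact Real.exp_le_exp.mpr (hmax _)
  have key := Complex.eqOn_of_isPreconnected_of_isMaxOn_norm hconn hopen hdiff τ₀.im_pos hmaxG
  intro τ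
  have := key τ.im_pos
  simpa only [hG, ofComplex_apply, Function.const] using this

/-- `T ^ N` conjugated by anything lies in `Γ₀(N)`. -/
theorem conj_T_pow_mem_Gamma0 (N : ℕ) (δ : SL(2, ℤ)) :
    δ * ModularGroup.T ^ (N : ℤ) * δ⁻¹ ∈ Gamma0 N := by
  have h1 : ModularGroup.T ^ (N : ℤ) ∈ CongruenceSubgroup.Gamma N := by
    simpa using ModularGroup_T_pow_mem_Gamma (N : ℤ) (N : ℤ) dvd_rfl
  have h2 : δ * ModularGroup.T ^ (N : ℤ) * δ⁻¹ ∈ CongruenceSubgroup.Gamma N :=
    (Gamma_normal N).conj_mem _ h1 δ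
  rw [Gamma_mem] at h2
  rw [Gamma0_mem]
  exact h2.2.2.1

theorem tendsto_T_zpow_smul (n : ℤ) :
    Tendsto (fun w : ℍ => ModularGroup.T ^ n • w) atImInfty atImInfty := by
  rw [atImInfty, tendsto_comap_iff]
  have : (UpperHalfPlane.im ∘ fun w : ℍ => ModularGroup.T ^ n • w) = UpperHalfPlane.im := by
    funext w
    exact ModularGroup.im_T_zpow_smul w n
  rw [this]
  exact tendsto_comap

/-- `w ↦ F (δ • w)` is invariant under `w ↦ w + N`. -/
theorem Good.comp_smul_T_pow (hF : Good N F) (δ : SL(2, ℤ)) (w : ℍ) :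
    F (δ • (ModularGroup.T ^ (N : ℤ) • w)) = F (δ • w) := by
  obtain ⟨L, hL⟩ := hF.lim δ
  set γ' : SL(2, ℤ) := δ * ModularGroup.T ^ (N : ℤ) * δ⁻¹ with hγ'
  have hmem : γ' ∈ Gamma0 N := conj_T_pow_mem_Gamma0 N δ
  have he : ∀ w : ℍ, δ • (ModularGroup.T ^ (N : ℤ) • w) = γ' • (δ • w) := by
    intro w
    rw [hγ', ← mul_smul, ← mul_smul]
    congr 1
    group
  have hc : ∀ w : ℍ, F (δ • (ModularGroup.T ^ (N : ℤ) • w)) - F (δ • w)
      = hF.equiv.period ⟨γ', hmem⟩ := by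
    intro w
    rw [he w]
    exact hF.equiv.sub_eq_period ⟨γ', hmem⟩ (δ • w)
  have h1 : Tendsto (fun w : ℍ => F (δ • (ModularGroup.T ^ (N : ℤ) • w)) - F (δ • w)) atImInfty
      (𝓝 (L - L)) := (hL.comp (tendsto_T_zpow_smul (N : ℤ))).sub hL
  have h2 : Tendsto (fun w : ℍ => F (δ • (ModularGroup.T ^ (N : ℤ) • w)) - F (δ • w)) atImInfty
      (𝓝 (hF.equiv.period ⟨γ', hmem⟩)) := by
    simp only [hc]
    exact tendsto_const_nhds
  have h3 := tendsto_nhds_unique h2 h1
  rw [sub_self] at h3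
  have := hc w
  rw [h3] at this
  exact sub_eq_zero.mp this

theorem Good.periodic_comp_smul (hF : Good N F) (δ : SL(2, ℤ)) :
    Function.Periodic ((fun w : ℍ => F (δ • w)) ∘ ofComplex) ((N : ℝ) : ℂ) := by
  intro z
  by_cases hz : 0 < z.im
  · have hz' : 0 < (z + ((N : ℝ) : ℂ)).im := by simpa using hz
    have hof : ofComplex (z + ((N : ℝ) : ℂ)) = ModularGroup.T ^ (N : ℤ) • ofComplex z := by
      apply UpperHalfPlane.ext
      rw [ModularGroup.coe_T_zpow_smul_eq, ofComplex_apply_of_im_pos hz',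
        ofComplex_apply_of_im_pos hz]
      simp
    simp only [Function.comp_apply, hof]
    exact hF.comp_smul_T_pow δ _
  · have hz0 : z.im ≤ 0 := not_lt.mp hz
    have hz' : (z + ((N : ℝ) : ℂ)).im ≤ 0 := by simpa using hz0
    simp only [Function.comp_apply, ofComplex_apply_eq_of_im_nonpos hz' hz0]

/-- Case 2: `Im F` is bounded by its limit along the cusp `δ∞`. -/
theorem Good.exp_const_of_cusp [NeZero N] (hF : Good N F) {δ : SL(2, ℤ)} {ℓ : ℝ}
    (hℓ : Tendsto (fun w : ℍ => (F (δ • w)).im) atImInfty (𝓝 ℓ))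
    (hle : ∀ τ : ℍ, (F τ).im ≤ ℓ) :
    ∃ c : ℂ, ∀ τ : ℍ, cexp (-Complex.I * F τ) = c := by
  obtain ⟨L, hL⟩ := hF.lim δ
  have hLℓ : L.im = ℓ :=
    tendsto_nhds_unique ((Complex.continuous_im.tendsto L).comp hL) hℓ
  have hN : (0 : ℝ) < N := Nat.cast_pos.mpr (NeZero.pos N)
  set Φ : ℍ → ℂ := fun w => F (δ • w) with hΦ
  have hper : Function.Periodic (Φ ∘ ofComplex) ((N : ℝ) : ℂ) := hF.periodic_comp_smul δ
  have hhol : MDifferentiable 𝓘(ℂ) 𝓘(ℂ) Φ :=
    hF.mdiff.comp (mdifferentiable_smul (det_mapGL_pos δ))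
  have hbdd : IsBoundedAtImInfty Φ := hL.isBigO_one ℝ
  set Ψ : ℂ → ℂ := UpperHalfPlane.cuspFunction (N : ℝ) Φ with hΨ
  have hΨdiff : DifferentiableOn ℂ Ψ (Metric.ball 0 1) :=
    differentiableOn_cuspFunction_ball hN hper hhol hbdd
  have hΨeq : ∀ w : ℍ, Ψ (Function.Periodic.qParam (N : ℝ) w) = Φ w :=
    fun w => UpperHalfPlane.eq_cuspFunction w hN.ne' hper
  have hΨ0 : Ψ 0 = L := by
    have han : AnalyticAt ℂ Ψ 0 := analyticAt_cuspFunction_zero hN hper hhol hbdd
    rw [hΨ, cuspFunction_apply_zero hN han hper]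
    exact hL.limUnder_eq
  set G : ℂ → ℂ := fun q => cexp (-Complex.I * Ψ q) with hG
  have hGdiff : DifferentiableOn ℂ G (Metric.ball 0 1) := by
    intro q hq
    exact (((hΨdiff q hq).const_mul (-Complex.I)).cexp)
  have hmax : IsMaxOn (norm ∘ G) (Metric.ball 0 1) 0 := by
    intro q hq
    simp only [Function.comp, hG, norm_exp_neg_I_mul]
    apply Real.exp_le_exp.mpr
    rw [hΨ0, hLℓ]
    by_cases hq0 : q = 0
    · rw [hq0, hΨ0, hLℓ]
    · have hq1 : ‖q‖ < 1 := mem_ball_zero_iff.mp hq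
      have him : 0 < (Function.Periodic.invQParam (N : ℝ) q).im :=
        Function.Periodic.im_invQParam_pos_of_norm_lt_one hN hq1 hq0
      have hqq : Function.Periodic.qParam (N : ℝ)
          ((⟨Function.Periodic.invQParam (N : ℝ) q, him⟩ : ℍ) : ℂ) = q :=
        Function.Periodic.qParam_right_inv hN.ne' hq0
      rw [← hqq, hΨeq]
      exact hle _
  have key := Complex.eqOn_of_isPreconnected_of_isMaxOn_norm (convex_ball (0 : ℂ) 1).isPreconnected
    Metric.isOpen_ball hGdiff (Metric.mem_ball_self one_pos) hmax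
  refine ⟨G 0, fun τ => ?_⟩
  have hτ : τ = δ • (δ⁻¹ • τ) := by rw [← mul_smul, mul_inv_cancel, one_smul]
  have hq1 : Function.Periodic.qParam (N : ℝ) ((δ⁻¹ • τ : ℍ) : ℂ) ∈ Metric.ball (0 : ℂ) 1 := by
    rw [mem_ball_zero_iff]
    exact Function.Periodic.norm_qParam_lt_one hN (δ⁻¹ • τ).im_pos
  have := key hq1
  simp only [hG, hΨeq, hΦ, Function.const] at this
  rw [← hτ] at this
  exact this

/-- A holomorphic function on `ℍ` with constant `Γ₀(N)`-differences, limits along all cusps and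
real periods has `exp (-i F)` constant. -/
theorem Good.exists_exp_const [NeZero N] (hF : Good N F)
    (hre : ∀ γ : Gamma0 N, (hF.equiv.period γ).im = 0) :
    ∃ c : ℂ, ∀ τ : ℍ, cexp (-Complex.I * F τ) = c := by
  have hu : Continuous fun τ : ℍ => (F τ).im := Complex.continuous_im.comp hF.continuous
  have hinv : ∀ γ ∈ Gamma0 N, ∀ τ : ℍ, (F (γ • τ)).im = (F τ).im :=
    fun γ hγ τ => hF.im_smul_eq hre γ hγ τ
  have hlim : ∀ δ : SL(2, ℤ), ∃ ℓ : ℝ,
      Tendsto (fun w : ℍ => (F (δ • w)).im) atImInfty (𝓝 ℓ) := by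
    intro δ
    obtain ⟨L, hL⟩ := hF.lim δ
    exact ⟨L.im, (Complex.continuous_im.tendsto L).comp hL⟩
  rcases exists_max_or_cusp (N := N) hu hinv hlim with ⟨τ₀, hτ₀⟩ | ⟨δ, ℓ, hℓ, hle⟩
  · exact ⟨_, hF.exp_const_of_max hτ₀⟩
  · exact hF.exp_const_of_cusp hℓ hle

/-- **Main analytic statement**: such an `F` has zero derivative everywhere. -/
theorem Good.hasDerivAt_zero [NeZero N] (hF : Good N F)
    (hre : ∀ γ : Gamma0 N, (hF.equiv.period γ).im = 0) (τ : ℍ) :
    HasDerivAt (F ∘ ofComplex) 0 (τ : ℂ) := by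
  obtain ⟨c, hc⟩ := hF.exists_exp_const hre
  exact hF.hasDerivAt_zero_of_exp_const hc τ

/-! ### Application to cusp forms -/

variable {f : CuspForm (Gamma0 N) 2}

theorem mdifferentiable_of_primitive (hF : HasEquivariantPrimitive N f F) :
    MDifferentiable 𝓘(ℂ) 𝓘(ℂ) F := by
  rw [UpperHalfPlane.mdifferentiable_iff]
  intro z hz
  exact (hF.1 ⟨z, hz⟩).differentiableAt.differentiableWithinAt

theorem good_of_primitive (hF : HasEquivariantPrimitive N f F) : Good N F :=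
  ⟨mdifferentiable_of_primitive hF, hF.2.2.1, hF.2.2.2⟩

theorem continuous_of_primitive (hF : HasEquivariantPrimitive N f F) : Continuous F :=
  (good_of_primitive hF).continuous

/-- **ES3a.** A weight-two cusp form on `Γ₀(N)` with an equivariant primitive all of whose periods
are real vanishes. -/
theorem eq_zero_of_real_periods [NeZero N] (f : CuspForm (Gamma0 N) 2) {F : ℍ → ℂ}
    (hF : HasEquivariantPrimitive N f F)
    (hre : ∀ γ : Gamma0 N, (hF.2.2.1.period γ).im = 0) : f = 0 := by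
  ext τ
  have h0 := (good_of_primitive hF).hasDerivAt_zero hre τ
  have := (hF.1 τ).unique h0
  simpa using this

/-- **ES3a**, `periodMap` form. -/
theorem eq_zero_of_im_periodMap [NeZero N] (f : CuspForm (Gamma0 N) 2)
    (hex : ∃ F : ℍ → ℂ, HasEquivariantPrimitive N f F)
    (h : ∀ γ : Gamma0 N, (periodMap N f (Additive.ofMul γ)).im = 0) : f = 0 := by
  obtain ⟨F, hF⟩ := hex
  obtain ⟨F₀, h₀, hp⟩ := periodMap_def N f hF
  refine eq_zero_of_real_periods f h₀ fun γ => ?_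
  have := h γ
  rwa [hp, IsEquivariantPrimitive.periodHom_apply] at this

end Main

end Fermat.Agent.S21.RealPeriods
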