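/-
S21 (Eichler–Shimura), slice (ES3b) of PROJECT ES (helper29): the conjugate form
`fᶜ(z) = conj (f (-conj z))` of a cusp form on `Γ₀(N)`, as a cusp form on `Γ₀(N)`, and the
resulting injectivity statements for `(1 ± ι) ∘ periodMap`.
-/
import Mathlib
import Fermat.Prelude.Def_ModularCurve_PeriodHomPair
import Fermat.Agent.S21.Primitive
import Fermat.Agent.S21.ConjPrim
import Fermat.Agent.S21.InjAux
import Fermat.Agent.S21.RealPeriods

set_option autoImplicit false

open UpperHalfPlane CongruenceSubgroup ModularCurve ModularCurve.Period Matrix.SpecialLinearGroup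
open scoped MatrixGroups ComplexConjugate ModularForm Pointwise

namespace Fermat.Agent.S21.ConjFormDef

/-- Conjugation by `J = diag(-1, 1)` on the image of `SL(2, ℤ)` in `GL(2, ℝ)` is the prelude
`jConjSL`. -/
theorem J_inv_mul_mapGL_mul_J (A : SL(2, ℤ)) :
    J⁻¹ * mapGL ℝ A * J = mapGL ℝ (jConjSL A) := by
  have hJ : J⁻¹ = J := by
    rw [inv_eq_iff_eq_inv, eq_inv_iff_mul_eq_one, ← sq, J_sq]
  rw [hJ]
  apply Units.ext
  rw [Units.val_mul, Units.val_mul, mapGL_coe_matrix, mapGL_coe_matrix]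
  have hc : ((jConjSL A : SL(2, ℤ)) : Matrix (Fin 2) (Fin 2) ℤ)
      = jConjMat (A : Matrix (Fin 2) (Fin 2) ℤ) := jConjSL_coe A
  ext i j
  fin_cases i <;> fin_cases j <;>
    simp [J, hc, jConjMat, Matrix.mul_apply, Fin.sum_univ_two, Matrix.vecMul, dotProduct]

theorem conjAct_J_Gamma0 (N : ℕ) :
    ConjAct.toConjAct J⁻¹ • (Gamma0 N : Subgroup (GL (Fin 2) ℝ))
      = (Gamma0 N : Subgroup (GL (Fin 2) ℝ)) := by
  ext x
  rw [Subgroup.mem_smul_pointwise_iff_exists]
  constructor
  · rintro ⟨s, hs, rfl⟩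
    obtain ⟨A, hA, rfl⟩ := Subgroup.mem_map.mp hs
    rw [ConjAct.toConjAct_smul, inv_inv, J_inv_mul_mapGL_mul_J]
    exact Subgroup.mem_map.mpr ⟨jConjSL A, jConjSL_mem_Gamma0 hA, rfl⟩
  · intro hx
    obtain ⟨A, hA, rfl⟩ := Subgroup.mem_map.mp hx
    refine ⟨mapGL ℝ (jConjSL A), Subgroup.mem_map.mpr ⟨jConjSL A, jConjSL_mem_Gamma0 hA, rfl⟩, ?_⟩
    rw [ConjAct.toConjAct_smul, inv_inv, J_inv_mul_mapGL_mul_J, jConjSL_jConjSL]

variable {N : ℕ}

/-- The conjugate form `z ↦ conj (f (-conj z))`. -/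
noncomputable def conjForm (f : CuspForm (Gamma0 N) 2) : CuspForm (Gamma0 N) 2 where
  toFun := ⇑f ∣[(2 : ℤ)] J
  slash_action_eq' := fun γ hγ =>
    (CuspForm.translate f J).slash_action_eq' γ (by rw [conjAct_J_Gamma0]; exact hγ)
  holo' := (CuspForm.translate f J).holo'
  zero_at_cusps' := fun hc =>
    (CuspForm.translate f J).zero_at_cusps' (by rw [conjAct_J_Gamma0]; exact hc)

theorem conjForm_apply (f : CuspForm (Gamma0 N) 2) (z : ℍ) :
    conjForm f z = conj (f (ofComplex (-conj (z : ℂ)))) := by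
  show (⇑f ∣[(2 : ℤ)] J) z = _
  simp [ModularForm.slash_def, J_smul]

theorem conjForm_apply' (f : CuspForm (Gamma0 N) 2) (z : ℍ) :
    conjForm f z = conj (f (ConjPrim.jmap z)) := by
  rw [conjForm_apply, ConjPrim.ofComplex_neg_conj]

theorem conjForm_conjForm (f : CuspForm (Gamma0 N) 2) : conjForm (conjForm f) = f := by
  refine DFunLike.ext _ _ fun z => ?_
  rw [conjForm_apply', conjForm_apply', ConjPrim.jmap_jmap, Complex.conj_conj]

/-- **(ES3b)** The character involution on periods in terms of the conjugate form. -/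
theorem charInvolution_periodMap [NeZero N] (f : CuspForm (Gamma0 N) 2)
    (γ : Additive (Gamma0 N)) :
    charInvolution N ℂ ℂ (periodMap N f) γ = -conj (periodMap N (conjForm f) γ) :=
  ConjPrim.charInvolution_periodMap_of' f (conjForm f) (conjForm_apply f) γ

/-- **(ES3)** packaged for the assembly `Assembly.result_of`: both `(1 + ι) ∘ P` and `(1 - ι) ∘ P`
have trivial kernel. -/
theorem hinj (N : ℕ) [NeZero N] : ∀ f : CuspForm (Gamma0 N) 2,
    (periodMap N f + charInvolution N ℂ ℂ (periodMap N f) = 0 → f = 0) ∧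
    (periodMap N f - charInvolution N ℂ ℂ (periodMap N f) = 0 → f = 0) := fun f =>
  InjAux.injective_aux_of conjForm (fun f γ => charInvolution_periodMap f γ)
    (fun f h => RealPeriods.eq_zero_of_im_periodMap f (Primitive.exists_primitive f) h) f

end Fermat.Agent.S21.ConjFormDef
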