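/-
S21 (Eichler–Shimura), slice (ES3) of PROJECT ES, abstract analytic core (helper29):
a maximum principle for a finite family of periodic holomorphic functions on the upper half plane
which are bounded at `i∞` and whose norms are dominated by values in a half plane `A ≤ im w`.
(The same trick as Mathlib's `levelOne_weight_zero_const`.)  Mathlib only.
-/
import Mathlib

set_option autoImplicit false

open Complex Function Filter Topology Metric

namespace Fermat.Agent.S21.MaxPeriodic

open Function.Periodic

/-- Differentiability of the cusp function of a periodic function which is holomorphic on the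
upper half plane and bounded at `i∞`, on the whole open unit disc. -/
theorem differentiableOn_cuspFunction {h : ℝ} (hh : 0 < h) {G : ℂ → ℂ} (hper : Periodic G h)
    (hdiff : ∀ z : ℂ, 0 < z.im → DifferentiableAt ℂ G z)
    (hbd : BoundedAtFilter (comap im atTop) G) :
    DifferentiableOn ℂ (cuspFunction h G) (ball 0 1) := by
  intro q hq
  refine DifferentiableAt.differentiableWithinAt ?_
  rcases eq_or_ne q 0 with rfl | hq0
  · refine differentiableAt_cuspFunction_zero hh hper ?_ hbd
    have h1 : ∀ᶠ z : ℂ in comap im atTop, 0 < z.im :=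
      tendsto_comap.eventually (eventually_gt_atTop 0)
    exact h1.mono fun z hz => hdiff z hz
  · have him : 0 < (invQParam h q).im :=
      im_invQParam_pos_of_norm_lt_one hh (mem_ball_zero_iff.mp hq) hq0
    have := differentiableAt_cuspFunction hh.ne' hper (hdiff _ him)
    rwa [qParam_right_inv hh.ne' hq0] at this

/-- **Maximum principle for a finite family of periodic functions.**  If every value `‖G i z‖`
(`z` in the upper half plane) is dominated by some `‖G j w‖` with `A ≤ im w`, then one of the
`G j` is constant on the upper half plane. -/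
theorem exists_const_of_dominated {ι : Type*} [Finite ι] [Nonempty ι] {h : ℝ} (hh : 0 < h)
    {A : ℝ} (hA : 0 < A) (G : ι → ℂ → ℂ) (hper : ∀ i, Periodic (G i) h)
    (hdiff : ∀ i (z : ℂ), 0 < z.im → DifferentiableAt ℂ (G i) z)
    (hbd : ∀ i, BoundedAtFilter (comap im atTop) (G i))
    (hdom : ∀ i (z : ℂ), 0 < z.im → ∃ j, ∃ w : ℂ, A ≤ w.im ∧ ‖G i z‖ ≤ ‖G j w‖) :
    ∃ j, ∀ z : ℂ, 0 < z.im → G j z = cuspFunction h (G j) 0 := by
  classical
  have := Fintype.ofFinite ι
  set r : ℝ := Real.exp (-2 * Real.pi * A / h) with hr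
  have hr0 : 0 ≤ r := (Real.exp_pos _).le
  have hr1 : r < 1 := by
    rw [hr, Real.exp_lt_one_iff]
    have : 0 < 2 * Real.pi * A / h := by positivity
    have e : -2 * Real.pi * A / h = -(2 * Real.pi * A / h) := by ring
    rw [e]; linarith
  have hcd : ∀ i, DifferentiableOn ℂ (cuspFunction h (G i)) (ball 0 1) := fun i =>
    differentiableOn_cuspFunction hh (hper i) (hdiff i) (hbd i)
  -- maxima on the closed ball of radius `r`
  have hmax : ∀ i, ∃ w ∈ closedBall (0 : ℂ) r,
      IsMaxOn (fun q => ‖cuspFunction h (G i) q‖) (closedBall (0 : ℂ) r) w := fun i =>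
    (isCompact_closedBall (0 : ℂ) r).exists_isMaxOn (nonempty_closedBall.mpr hr0)
      ((hcd i).continuousOn.mono (closedBall_subset_ball hr1)).norm
  choose w hw hwmax using hmax
  obtain ⟨j, -, hj⟩ := Finset.exists_max_image (Finset.univ : Finset ι)
    (fun i => ‖cuspFunction h (G i) (w i)‖) Finset.univ_nonempty
  refine ⟨j, ?_⟩
  -- the key bound
  have key : ∀ q ∈ ball (0 : ℂ) 1, q ≠ 0 →
      ‖cuspFunction h (G j) q‖ ≤ ‖cuspFunction h (G j) (w j)‖ := by
    intro q hq hq0
    have him : 0 < (invQParam h q).im :=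
      im_invQParam_pos_of_norm_lt_one hh (mem_ball_zero_iff.mp hq) hq0
    obtain ⟨k, w', hw', hle⟩ := hdom j _ him
    rw [cuspFunction_eq_of_nonzero _ _ hq0]
    refine hle.trans ?_
    rw [← eq_cuspFunction hh.ne' (hper k) w']
    have hmem : qParam h w' ∈ closedBall (0 : ℂ) r := by
      rw [mem_closedBall_zero_iff, norm_qParam, hr, Real.exp_le_exp]
      have h2 : 0 < 2 * Real.pi / h := by positivity
      have e1 : -2 * Real.pi * w'.im / h = -(2 * Real.pi / h) * w'.im := by ring
      have e2 : -2 * Real.pi * A / h = -(2 * Real.pi / h) * A := by ring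
      rw [e1, e2]
      nlinarith
    exact (hwmax k hmem).trans (hj k (Finset.mem_univ k))
  have key0 : ∀ q ∈ ball (0 : ℂ) 1,
      ‖cuspFunction h (G j) q‖ ≤ ‖cuspFunction h (G j) (w j)‖ := by
    intro q hq
    rcases eq_or_ne q 0 with rfl | hq0
    · have hc : ContinuousAt (cuspFunction h (G j)) 0 :=
        ((hcd j).differentiableAt (ball_mem_nhds 0 one_pos)).continuousAt
      have ht : Tendsto (fun q => ‖cuspFunction h (G j) q‖) (𝓝[≠] 0)
          (𝓝 ‖cuspFunction h (G j) 0‖) :=
        (hc.norm.tendsto).mono_left nhdsWithin_le_nhds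
      refine le_of_tendsto ht ?_
      have h1 : ∀ᶠ q : ℂ in 𝓝[≠] 0, q ∈ ball (0 : ℂ) 1 :=
        nhdsWithin_le_nhds (ball_mem_nhds 0 one_pos)
      have h2 : ∀ᶠ q : ℂ in 𝓝[≠] 0, q ≠ 0 := self_mem_nhdsWithin
      filter_upwards [h1, h2] with q hq1 hq2 using key q hq1 hq2
    · exact key q hq hq0
  have hconst := eq_const_of_exists_le (hcd j) hr0 hr1
    (fun z hz => ⟨w j, hw j, key0 z hz⟩)
  intro z hz
  rw [← eq_cuspFunction hh.ne' (hper j) z]
  exact hconst (mem_ball_zero_iff.mpr (norm_qParam_lt_one hh hz))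

end Fermat.Agent.S21.MaxPeriodic
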