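import Mathlib

/-!
# S21 (project ES): an upper bound for the dimension of a space of "parabolic" homomorphisms

Abstract setting: a group `G` generated by two elements `s`, `t`, acting transitively on a finite
set `Q` with a base point `x₀` whose stabiliser is `Γ`.  A homomorphism `ψ : Γ → ℂ` induces a
cocycle `c_ψ : G → (Q → ℂ)`; if `ψ` kills the `Γ`-conjugates of `s ^ 2`, `(s t) ^ 3` and `t ^ k`
(which act trivially on `Q`), then `c_ψ(s)`, `c_ψ(t)`, `c_ψ(s t)` are orthogonal to the `s`-, `t`-,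
`s t`-invariant functions on `Q`.  Counting dimensions gives

`dim V + #(s-orbits) + #(t-orbits) + #(st-orbits) ≤ #Q + 2`

for every space `V` of such homomorphisms.  No presentation of `G` is needed.
-/

set_option autoImplicit false
set_option linter.unusedSectionVars false

open scoped BigOperators

namespace Fermat.Agent.S21.ParabolicDim

section Cocycle

variable {G : Type*} [Group G] {Q : Type*} [Fintype Q] [MulAction G Q]

/-- The cocycle identity for `c : G → (Q → ℂ)`, `G` acting on functions by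
`(g • m) x = m (g⁻¹ • x)`. -/
def IsCocycle (c : G → Q → ℂ) : Prop := ∀ g h x, c (g * h) x = c g x + c h (g⁻¹ • x)

theorem IsCocycle.one {c : G → Q → ℂ} (hc : IsCocycle c) (x : Q) : c 1 x = 0 := by
  have h := hc 1 1 x
  simp only [mul_one, inv_one, one_smul] at h
  linear_combination -h

theorem IsCocycle.inv {c : G → Q → ℂ} (hc : IsCocycle c) (g : G) (x : Q) :
    c g⁻¹ x = -c g (g • x) := by
  have h := hc g g⁻¹ (g • x)
  rw [mul_inv_cancel, hc.one, inv_smul_smul] at h
  linear_combination -h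

theorem IsCocycle.pow {c : G → Q → ℂ} (hc : IsCocycle c) (g : G) (k : ℕ) (x : Q) :
    c (g ^ k) x = ∑ i ∈ Finset.range k, c g ((g ^ i)⁻¹ • x) := by
  induction k with
  | zero => simp [hc.one]
  | succ k ih => rw [pow_succ, hc, ih, Finset.sum_range_succ]

/-- The set of `g` on which a cocycle vanishes is a subgroup. -/
def IsCocycle.zeroSubgroup {c : G → Q → ℂ} (hc : IsCocycle c) : Subgroup G where
  carrier := {g | ∀ x, c g x = 0}
  one_mem' := fun x => hc.one x
  mul_mem' := by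
    intro g h hg hh x
    rw [hc, hg, hh, add_zero]
  inv_mem' := by
    intro g hg x
    rw [hc.inv, hg, neg_zero]

theorem IsCocycle.eq_zero_of_closure {c : G → Q → ℂ} (hc : IsCocycle c) {s t : G}
    (hgen : Subgroup.closure {s, t} = ⊤) (hs : ∀ x, c s x = 0) (ht : ∀ x, c t x = 0)
    (g : G) (x : Q) : c g x = 0 := by
  have hle : Subgroup.closure {s, t} ≤ hc.zeroSubgroup := by
    rw [Subgroup.closure_le]
    intro y hy
    rcases hy with rfl | rfl
    · exact hs
    · exact ht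
  have : g ∈ hc.zeroSubgroup := hle (by rw [hgen]; trivial)
  exact this x

theorem invariant_pow_inv {g : G} {m : Q → ℂ} (hm : ∀ x, m (g • x) = m x) (i : ℕ) (x : Q) :
    m ((g ^ i)⁻¹ • x) = m x := by
  have h1 : ∀ (i : ℕ) (y : Q), m (g ^ i • y) = m y := by
    intro i
    induction i with
    | zero => intro y; simp
    | succ i ih => intro y; rw [pow_succ, mul_smul, ih, hm]
  have := h1 i ((g ^ i)⁻¹ • x)
  rw [smul_inv_smul] at this
  exact this.symm

/-- **Orthogonality principle**: if `g ^ k` acts trivially on `Q` and `c (g ^ k) = 0`, then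
`c g` is orthogonal to every `g`-invariant function. -/
theorem IsCocycle.sum_mul_eq_zero {c : G → Q → ℂ} (hc : IsCocycle c) (g : G) {k : ℕ}
    (hk : k ≠ 0) (hck : ∀ x, c (g ^ k) x = 0)
    {m : Q → ℂ} (hm : ∀ x, m (g • x) = m x) : ∑ x, c g x * m x = 0 := by
  have h1 : ∑ x, c (g ^ k) x * m x = 0 := by simp [hck]
  have h2 : ∑ x, c (g ^ k) x * m x = (k : ℂ) * ∑ x, c g x * m x := by
    calc ∑ x, c (g ^ k) x * m x
        = ∑ x, ∑ i ∈ Finset.range k, c g ((g ^ i)⁻¹ • x) * m ((g ^ i)⁻¹ • x) := by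
          refine Finset.sum_congr rfl fun x _ => ?_
          rw [hc.pow, Finset.sum_mul]
          refine Finset.sum_congr rfl fun i _ => ?_
          rw [invariant_pow_inv hm]
      _ = ∑ i ∈ Finset.range k, ∑ x, c g ((g ^ i)⁻¹ • x) * m ((g ^ i)⁻¹ • x) :=
          Finset.sum_comm
      _ = ∑ i ∈ Finset.range k, ∑ x, c g x * m x := by
          refine Finset.sum_congr rfl fun i _ => ?_
          exact Equiv.sum_comp (MulAction.toPerm (g ^ i)⁻¹) (fun x => c g x * m x)
      _ = (k : ℂ) * ∑ x, c g x * m x := by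
          rw [Finset.sum_const, Finset.card_range, nsmul_eq_mul]
  rw [h2] at h1
  rcases mul_eq_zero.mp h1 with h | h
  · exact absurd (by exact_mod_cast h) hk
  · exact h

end Cocycle

section CosetData

variable {G : Type*} [Group G] {Q : Type*} [MulAction G Q]

/-- A base point with stabiliser `Γ` and a system of representatives. -/
structure CosetData (Γ : Subgroup G) (Q : Type*) [MulAction G Q] where
  x₀ : Q
  r : Q → G
  mem_iff : ∀ g : G, g • x₀ = x₀ ↔ g ∈ Γ
  r_smul : ∀ x, r x • x₀ = x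

variable {Γ : Subgroup G} (D : CosetData Γ Q)

/-- The Schreier element `r(x)⁻¹ g r(g⁻¹ x) ∈ Γ`. -/
def CosetData.elt (g : G) (x : Q) : Γ :=
  ⟨(D.r x)⁻¹ * g * D.r (g⁻¹ • x), by
    rw [← D.mem_iff, mul_smul, mul_smul, D.r_smul, smul_inv_smul, inv_smul_eq_iff, D.r_smul]⟩

theorem CosetData.elt_mul (g h : G) (x : Q) :
    D.elt (g * h) x = D.elt g x * D.elt h (g⁻¹ • x) := by
  apply Subtype.ext
  simp only [CosetData.elt, Subgroup.coe_mul, mul_inv_rev, mul_smul]
  group

theorem CosetData.r_x₀_mem : D.r D.x₀ ∈ Γ := (D.mem_iff _).mp (D.r_smul _)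

/-- The cocycle attached to a homomorphism `ψ : Γ → ℂ`. -/
def CosetData.coc (ψ : Additive Γ →+ ℂ) (g : G) (x : Q) : ℂ := ψ (Additive.ofMul (D.elt g x))

/-- The cocycle of `ψ` plus the coboundary of `m`. -/
def CosetData.tot (ψ : Additive Γ →+ ℂ) (m : Q → ℂ) (g : G) (x : Q) : ℂ :=
  D.coc ψ g x + (m (g⁻¹ • x) - m x)

theorem CosetData.isCocycle_tot (ψ : Additive Γ →+ ℂ) (m : Q → ℂ) : IsCocycle (D.tot ψ m) := by
  intro g h x
  simp only [CosetData.tot, CosetData.coc, D.elt_mul, ofMul_mul, map_add, mul_inv_rev, mul_smul]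
  ring

/-- On `γ ∈ Γ` and the base point, the cocycle gives back `ψ γ`. -/
theorem CosetData.coc_base (ψ : Additive Γ →+ ℂ) (γ : Γ) :
    D.coc ψ (γ : G) D.x₀ = ψ (Additive.ofMul γ) := by
  have hfix : ((γ : G))⁻¹ • D.x₀ = D.x₀ := by
    rw [inv_smul_eq_iff]; exact ((D.mem_iff _).mpr γ.2).symm
  have : D.elt (γ : G) D.x₀ = (⟨D.r D.x₀, D.r_x₀_mem⟩ : Γ)⁻¹ * γ * ⟨D.r D.x₀, D.r_x₀_mem⟩ := by
    apply Subtype.ext
    simp only [CosetData.elt, hfix, Subgroup.coe_mul, Subgroup.coe_inv]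
  rw [CosetData.coc, this]
  simp only [ofMul_mul, ofMul_inv, map_add, map_neg]
  ring

end CosetData

section Main

variable {G : Type*} [Group G] {Q : Type*} [Fintype Q] [MulAction G Q]
  {Γ : Subgroup G} (D : CosetData Γ Q)
  {Os Ot Ou : Type*} [Fintype Os] [Fintype Ot] [Fintype Ou]

/-- The map `(ψ, m) ↦ (c(s), c(t))` for the total cochain `c = c_ψ + ∂m`. -/
def Psi (s t : G) : ((Additive Γ →+ ℂ) × (Q → ℂ)) →ₗ[ℂ] ((Q → ℂ) × (Q → ℂ)) where
  toFun p := (D.tot p.1 p.2 s, D.tot p.1 p.2 t)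
  map_add' := by
    intro p p'
    ext x <;> simp only [CosetData.tot, CosetData.coc, Prod.fst_add, Prod.snd_add,
      AddMonoidHom.add_apply, Pi.add_apply] <;> ring
  map_smul' := by
    intro c p
    ext x <;> simp only [CosetData.tot, CosetData.coc, Prod.smul_fst, Prod.smul_snd,
      AddMonoidHom.smul_apply, Pi.smul_apply, smul_eq_mul, RingHom.id_apply] <;> ring

/-- The pairing of orbit-functions with pairs of functions on `Q`. -/
def pairing (πs : Q → Os) (πt : Q → Ot) (πu : Q → Ou) (s : G) :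
    ((Os → ℂ) × (Ot → ℂ) × (Ou → ℂ)) →ₗ[ℂ] Module.Dual ℂ ((Q → ℂ) × (Q → ℂ)) :=
  LinearMap.mk₂ ℂ
    (fun (y : (Os → ℂ) × (Ot → ℂ) × (Ou → ℂ)) (x : (Q → ℂ) × (Q → ℂ)) =>
      ∑ q, (x.1 q * (y.1 (πs q) + y.2.2 (πu q))
        + x.2 q * (y.2.1 (πt q) + y.2.2 (πu (s • q)))))
    (by
      intro y y' x
      simp only [Prod.fst_add, Prod.snd_add, Pi.add_apply]
      rw [← Finset.sum_add_distrib]
      refine Finset.sum_congr rfl fun q _ => ?_
      ring)
    (by
      intro c y x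
      simp only [Prod.smul_fst, Prod.smul_snd, Pi.smul_apply, smul_eq_mul]
      rw [Finset.mul_sum]
      refine Finset.sum_congr rfl fun q _ => ?_
      ring)
    (by
      intro y x x'
      simp only [Prod.fst_add, Prod.snd_add, Pi.add_apply]
      rw [← Finset.sum_add_distrib]
      refine Finset.sum_congr rfl fun q _ => ?_
      ring)
    (by
      intro c y x
      simp only [Prod.smul_fst, Prod.smul_snd, Pi.smul_apply, smul_eq_mul]
      rw [Finset.mul_sum]
      refine Finset.sum_congr rfl fun q _ => ?_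
      ring)

theorem pairing_apply (πs : Q → Os) (πt : Q → Ot) (πu : Q → Ou) (s : G)
    (y : (Os → ℂ) × (Ot → ℂ) × (Ou → ℂ)) (x : (Q → ℂ) × (Q → ℂ)) :
    pairing πs πt πu s y x = ∑ q, (x.1 q * (y.1 (πs q) + y.2.2 (πu q))
      + x.2 q * (y.2.1 (πt q) + y.2.2 (πu (s • q)))) := rfl

theorem tot_pow_eq_zero (ψ : Additive Γ →+ ℂ) (m : Q → ℂ) (g : G) (k : ℕ)
    (htriv : ∀ x : Q, g ^ k • x = x) (hψ : ∀ x, D.coc ψ (g ^ k) x = 0) (x : Q) :
    D.tot ψ m (g ^ k) x = 0 := by
  have : (g ^ k)⁻¹ • x = x := by rw [inv_smul_eq_iff, htriv]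
  rw [CosetData.tot, hψ, this]; ring

/-- **Orthogonality** of the image of `Psi` and the image of the pairing. -/
theorem pairing_Psi_eq_zero (s t : G)
    (πs : Q → Os) (πt : Q → Ot) (πu : Q → Ou)
    (hπs : ∀ x, πs (s • x) = πs x) (hπt : ∀ x, πt (t • x) = πt x)
    (hπu : ∀ x, πu ((s * t) • x) = πu x)
    {ks kt ku : ℕ} (hks : ks ≠ 0) (hkt : kt ≠ 0) (hku : ku ≠ 0)
    (hs_triv : ∀ x : Q, s ^ ks • x = x) (ht_triv : ∀ x : Q, t ^ kt • x = x)
    (hu_triv : ∀ x : Q, (s * t) ^ ku • x = x)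
    (ψ : Additive Γ →+ ℂ)
    (hψs : ∀ x : Q, D.coc ψ (s ^ ks) x = 0) (hψt : ∀ x : Q, D.coc ψ (t ^ kt) x = 0)
    (hψu : ∀ x : Q, D.coc ψ ((s * t) ^ ku) x = 0)
    (m : Q → ℂ) (y : (Os → ℂ) × (Ot → ℂ) × (Ou → ℂ)) :
    pairing πs πt πu s y (Psi D s t (ψ, m)) = 0 := by
  have hc := D.isCocycle_tot ψ m
  have e1 : ∑ q, D.tot ψ m s q * (y.1 (πs q)) = 0 :=
    hc.sum_mul_eq_zero s hks (tot_pow_eq_zero D ψ m s ks hs_triv hψs)
      (m := fun q => y.1 (πs q)) (fun x => by simp only [hπs])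
  have e2 : ∑ q, D.tot ψ m t q * (y.2.1 (πt q)) = 0 :=
    hc.sum_mul_eq_zero t hkt (tot_pow_eq_zero D ψ m t kt ht_triv hψt)
      (m := fun q => y.2.1 (πt q)) (fun x => by simp only [hπt])
  have e3 : ∑ q, D.tot ψ m (s * t) q * (y.2.2 (πu q)) = 0 :=
    hc.sum_mul_eq_zero (s * t) hku (tot_pow_eq_zero D ψ m (s * t) ku hu_triv hψu)
      (m := fun q => y.2.2 (πu q)) (fun x => by simp only [hπu])
  have e4 : ∑ q, D.tot ψ m t (s⁻¹ • q) * (y.2.2 (πu q))
      = ∑ q, D.tot ψ m t q * (y.2.2 (πu (s • q))) := by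
    rw [← Equiv.sum_comp (MulAction.toPerm s)
      (fun q => D.tot ψ m t (s⁻¹ • q) * (y.2.2 (πu q)))]
    refine Finset.sum_congr rfl fun q _ => ?_
    simp only [MulAction.toPerm_apply, inv_smul_smul]
  have e5 : ∑ q, D.tot ψ m (s * t) q * (y.2.2 (πu q))
      = ∑ q, D.tot ψ m s q * (y.2.2 (πu q)) + ∑ q, D.tot ψ m t (s⁻¹ • q) * (y.2.2 (πu q)) := by
    rw [← Finset.sum_add_distrib]
    refine Finset.sum_congr rfl fun q _ => ?_
    rw [hc s t q]; ring
  rw [pairing_apply]
  show ∑ q, (D.tot ψ m s q * (y.1 (πs q) + y.2.2 (πu q))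
      + D.tot ψ m t q * (y.2.1 (πt q) + y.2.2 (πu (s • q)))) = 0
  have e6 : ∑ q, (D.tot ψ m s q * (y.1 (πs q) + y.2.2 (πu q))
      + D.tot ψ m t q * (y.2.1 (πt q) + y.2.2 (πu (s • q))))
      = ∑ q, D.tot ψ m s q * (y.1 (πs q)) + ∑ q, D.tot ψ m t q * (y.2.1 (πt q))
        + (∑ q, D.tot ψ m s q * (y.2.2 (πu q))
          + ∑ q, D.tot ψ m t q * (y.2.2 (πu (s • q)))) := by
    rw [← Finset.sum_add_distrib, ← Finset.sum_add_distrib, ← Finset.sum_add_distrib]
    refine Finset.sum_congr rfl fun q _ => ?_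
    ring
  rw [e6, e1, e2, ← e4, ← e5, e3]; ring

/-- The kernel of `Psi`. -/
theorem ker_Psi {s t : G} (hgen : Subgroup.closure {s, t} = ⊤)
    (ψ : Additive Γ →+ ℂ) (m : Q → ℂ) (h : Psi D s t (ψ, m) = 0) :
    ψ = 0 ∧ ∀ x, m x = m D.x₀ := by
  have hc := D.isCocycle_tot ψ m
  have hs : ∀ x, D.tot ψ m s x = 0 := fun x => congrFun (congrArg Prod.fst h) x
  have ht : ∀ x, D.tot ψ m t x = 0 := fun x => congrFun (congrArg Prod.snd h) x
  have hall := hc.eq_zero_of_closure hgen hs ht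
  have hψ : ψ = 0 := by
    refine AddMonoidHom.ext fun γ' => ?_
    have h1 := hall ((Additive.toMul γ' : Γ) : G) D.x₀
    have hfix : (((Additive.toMul γ' : Γ) : G))⁻¹ • D.x₀ = D.x₀ := by
      rw [inv_smul_eq_iff]; exact ((D.mem_iff _).mpr (Additive.toMul γ').2).symm
    rw [CosetData.tot, D.coc_base, hfix] at h1
    have h2 : ψ γ' = 0 := by
      have : Additive.ofMul (Additive.toMul γ') = γ' := rfl
      rw [this] at h1
      linear_combination h1
    rw [h2]; rfl
  refine ⟨hψ, fun x => ?_⟩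
  have h1 := hall (D.r x) x
  have hx : (D.r x)⁻¹ • x = D.x₀ := by rw [inv_smul_eq_iff, D.r_smul]
  rw [CosetData.tot, hx, hψ] at h1
  simp only [CosetData.coc, AddMonoidHom.zero_apply, zero_add] at h1
  linear_combination -h1

/-- The kernel of the pairing. -/
theorem ker_pairing {s t : G} (hgen : Subgroup.closure {s, t} = ⊤)
    (x₀ : Q) (htrans : ∀ q : Q, ∃ g : G, g • x₀ = q)
    (πs : Q → Os) (πt : Q → Ot) (πu : Q → Ou)
    (hsurj_s : Function.Surjective πs) (hsurj_t : Function.Surjective πt)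
    (hsurj_u : Function.Surjective πu)
    (hπs : ∀ x, πs (s • x) = πs x)
    (hπu : ∀ x, πu ((s * t) • x) = πu x)
    (y : (Os → ℂ) × (Ot → ℂ) × (Ou → ℂ)) (h : pairing πs πt πu s y = 0) :
    ∃ c : ℂ, y = (fun _ => -c, fun _ => -c, fun _ => c) := by
  classical
  have h1 : ∀ q, y.1 (πs q) + y.2.2 (πu q) = 0 := by
    intro q
    have := congrArg (fun φ => φ ((Pi.single q 1 : Q → ℂ), (0 : Q → ℂ))) h
    simp only [pairing_apply, LinearMap.zero_apply, Pi.zero_apply, zero_mul, add_zero] at this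
    rw [Finset.sum_eq_single q] at this
    · simpa using this
    · intro b _ hb; simp [hb]
    · intro hq; exact absurd (Finset.mem_univ q) hq
  have h2 : ∀ q, y.2.1 (πt q) + y.2.2 (πu (s • q)) = 0 := by
    intro q
    have := congrArg (fun φ => φ ((0 : Q → ℂ), (Pi.single q 1 : Q → ℂ))) h
    simp only [pairing_apply, LinearMap.zero_apply, Pi.zero_apply, zero_mul, zero_add] at this
    rw [Finset.sum_eq_single q] at this
    · simpa using this
    · intro b _ hb; simp [hb]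
    · intro hq; exact absurd (Finset.mem_univ q) hq
  -- `φ := y.2.2 ∘ πu` is invariant under `s` and `s * t`, hence under everything
  let φ : Q → ℂ := fun q => y.2.2 (πu q)
  have hφs : ∀ q, φ (s • q) = φ q := by
    intro q
    have a := h1 q
    have b := h1 (s • q)
    rw [hπs] at b
    show y.2.2 (πu (s • q)) = y.2.2 (πu q)
    linear_combination b - a
  have hφu : ∀ q, φ ((s * t) • q) = φ q := fun q => by simp only [φ, hπu]
  let H : Subgroup G :=
    { carrier := {g | ∀ q, φ (g • q) = φ q}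
      one_mem' := fun q => by simp
      mul_mem' := by
        intro g g' hg hg' q
        rw [mul_smul, hg, hg']
      inv_mem' := by
        intro g hg q
        have := hg (g⁻¹ • q)
        rw [smul_inv_smul] at this
        exact this.symm }
  have hsH : s ∈ H := hφs
  have hstH : s * t ∈ H := hφu
  have htH : t ∈ H := by
    have := H.mul_mem (H.inv_mem hsH) hstH
    simpa using this
  have hH : H = ⊤ := by
    rw [eq_top_iff, ← hgen, Subgroup.closure_le]
    intro g hg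
    rcases hg with rfl | rfl
    · exact hsH
    · exact htH
  have hconst : ∀ q, φ q = φ x₀ := by
    intro q
    obtain ⟨g, rfl⟩ := htrans q
    have : g ∈ H := by rw [hH]; trivial
    exact this x₀
  refine ⟨φ x₀, ?_⟩
  ext o
  · obtain ⟨q, rfl⟩ := hsurj_s o
    have := h1 q
    show y.1 (πs q) = -φ x₀
    rw [← hconst q]
    linear_combination this
  · obtain ⟨q, rfl⟩ := hsurj_t o
    have := h2 q
    show y.2.1 (πt q) = -φ x₀
    rw [← hconst (s • q)]
    linear_combination this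
  · obtain ⟨q, rfl⟩ := hsurj_u o
    exact hconst q

/-- **Main abstract bound.** -/
theorem finrank_add_card_le
    {s t : G} (hgen : Subgroup.closure {s, t} = ⊤)
    (πs : Q → Os) (πt : Q → Ot) (πu : Q → Ou)
    (hsurj_s : Function.Surjective πs) (hsurj_t : Function.Surjective πt)
    (hsurj_u : Function.Surjective πu)
    (hπs : ∀ x, πs (s • x) = πs x) (hπt : ∀ x, πt (t • x) = πt x)
    (hπu : ∀ x, πu ((s * t) • x) = πu x)
    {ks kt ku : ℕ} (hks : ks ≠ 0) (hkt : kt ≠ 0) (hku : ku ≠ 0)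
    (hs_triv : ∀ x : Q, s ^ ks • x = x) (ht_triv : ∀ x : Q, t ^ kt • x = x)
    (hu_triv : ∀ x : Q, (s * t) ^ ku • x = x)
    (V : Submodule ℂ (Additive Γ →+ ℂ))
    (hVs : ∀ ψ ∈ V, ∀ x : Q, D.coc ψ (s ^ ks) x = 0)
    (hVt : ∀ ψ ∈ V, ∀ x : Q, D.coc ψ (t ^ kt) x = 0)
    (hVu : ∀ ψ ∈ V, ∀ x : Q, D.coc ψ ((s * t) ^ ku) x = 0) :
    FiniteDimensional ℂ V ∧
      Module.finrank ℂ V + Fintype.card Os + Fintype.card Ot + Fintype.card Ou
        ≤ Fintype.card Q + 2 := by
  classical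
  -- the restricted map
  let ΨV : (V × (Q → ℂ)) →ₗ[ℂ] ((Q → ℂ) × (Q → ℂ)) :=
    (Psi D s t) ∘ₗ (LinearMap.prodMap V.subtype LinearMap.id)
  have hΨV : ∀ p : V × (Q → ℂ), ΨV p = Psi D s t ((p.1 : Additive Γ →+ ℂ), p.2) := fun p => rfl
  have hker : ∀ p : V × (Q → ℂ), ΨV p = 0 → p.1 = 0 ∧ ∀ x, p.2 x = p.2 D.x₀ := by
    intro p hp
    rw [hΨV] at hp
    obtain ⟨h1, h2⟩ := ker_Psi D hgen _ _ hp
    exact ⟨Subtype.ext h1, h2⟩
  -- finite-dimensionality of `V`
  have hfd : FiniteDimensional ℂ V := by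
    let ι : V →ₗ[ℂ] ((Q → ℂ) × (Q → ℂ)) := ΨV ∘ₗ (LinearMap.inl ℂ V (Q → ℂ))
    have hι : Function.Injective ι := by
      rw [← LinearMap.ker_eq_bot, LinearMap.ker_eq_bot']
      intro ψ hψ
      exact (hker (ψ, 0) hψ).1
    exact FiniteDimensional.of_injective ι hι
  refine ⟨hfd, ?_⟩
  -- the kernel of `ΨV` is at most one-dimensional
  have hker1 : Module.finrank ℂ (LinearMap.ker ΨV) ≤ 1 := by
    have hle : LinearMap.ker ΨV ≤ Submodule.span ℂ {((0 : V), (fun _ => (1 : ℂ) : Q → ℂ))} := by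
      intro p hp
      obtain ⟨h1, h2⟩ := hker p (LinearMap.mem_ker.mp hp)
      rw [Submodule.mem_span_singleton]
      refine ⟨p.2 D.x₀, ?_⟩
      ext x
      · simp [h1]
      · simp [h2 x]
    calc Module.finrank ℂ (LinearMap.ker ΨV)
        ≤ Module.finrank ℂ (Submodule.span ℂ {((0 : V), (fun _ => (1 : ℂ) : Q → ℂ))}) :=
          Submodule.finrank_mono hle
      _ ≤ 1 := by
          refine (finrank_span_le_card _).trans ?_
          simp
  have hrn := LinearMap.finrank_range_add_finrank_ker ΨV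
  have hdom : Module.finrank ℂ (V × (Q → ℂ)) = Module.finrank ℂ V + Fintype.card Q := by
    rw [Module.finrank_prod, Module.finrank_fintype_fun_eq_card]
  -- the pairing
  let P := pairing (Q := Q) πs πt πu s
  have hPle : LinearMap.range P ≤ (LinearMap.range ΨV).dualAnnihilator := by
    rintro φ ⟨y, rfl⟩
    rw [Submodule.mem_dualAnnihilator]
    rintro w ⟨p, rfl⟩
    rw [hΨV]
    exact pairing_Psi_eq_zero D s t πs πt πu hπs hπt hπu hks hkt hku hs_triv ht_triv hu_triv
      _ (hVs _ p.1.2) (hVt _ p.1.2) (hVu _ p.1.2) _ _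
  have hann := Subspace.finrank_add_finrank_dualAnnihilator_eq (LinearMap.range ΨV)
  have hX : Module.finrank ℂ ((Q → ℂ) × (Q → ℂ)) = Fintype.card Q + Fintype.card Q := by
    rw [Module.finrank_prod, Module.finrank_fintype_fun_eq_card]
  have hPker1 : Module.finrank ℂ (LinearMap.ker P) ≤ 1 := by
    have hle : LinearMap.ker P ≤ Submodule.span ℂ
        {((fun _ => (-1 : ℂ) : Os → ℂ), (fun _ => (-1 : ℂ) : Ot → ℂ), (fun _ => (1 : ℂ) : Ou → ℂ))} := by
      intro y hy
      have htrans : ∀ q : Q, ∃ g : G, g • D.x₀ = q := fun q => ⟨D.r q, D.r_smul q⟩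
      obtain ⟨c, hc⟩ := ker_pairing hgen D.x₀ htrans πs πt πu hsurj_s hsurj_t hsurj_u hπs hπu y
        (LinearMap.mem_ker.mp hy)
      rw [Submodule.mem_span_singleton]
      refine ⟨c, ?_⟩
      rw [hc]
      ext o <;> simp
    calc Module.finrank ℂ (LinearMap.ker P)
        ≤ Module.finrank ℂ (Submodule.span ℂ
            {((fun _ => (-1 : ℂ) : Os → ℂ), (fun _ => (-1 : ℂ) : Ot → ℂ),
              (fun _ => (1 : ℂ) : Ou → ℂ))}) := Submodule.finrank_mono hle
      _ ≤ 1 := by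
          refine (finrank_span_le_card _).trans ?_
          simp
  have hPrn := LinearMap.finrank_range_add_finrank_ker P
  have hY : Module.finrank ℂ ((Os → ℂ) × (Ot → ℂ) × (Ou → ℂ))
      = Fintype.card Os + (Fintype.card Ot + Fintype.card Ou) := by
    rw [Module.finrank_prod, Module.finrank_prod, Module.finrank_fintype_fun_eq_card,
      Module.finrank_fintype_fun_eq_card, Module.finrank_fintype_fun_eq_card]
  have hmono := Submodule.finrank_mono hPle
  omega

end Main

end Fermat.Agent.S21.ParabolicDim
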