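/-
S21 (Eichler–Shimura), slice (ES3) of PROJECT ES (helper29): a weight-two cusp form on `Γ₀(N)`
all of whose periods are real vanishes.

Proof: `g := exp(-i F)` (`F` the canonical primitive) has `Γ₀(N)`-invariant norm; the finitely many
translates `g ∘ δ` (`δ` coset representatives) are `N`-periodic, holomorphic and bounded at `i∞`, and
every value of `‖g‖` is attained by some translate in the half plane `1/2 ≤ im`.  The maximum
principle `MaxPeriodic.exists_const_of_dominated` shows that `g` is constant, hence `f = F' = 0`.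
-/
import Mathlib
import Fermat.Prelude.Def_ModularCurve_PeriodHomPair
import Fermat.Agent.S21.Primitive
import Fermat.Agent.S21.Parabolic
import Fermat.Agent.S21.MaxPeriodic

set_option autoImplicit false

open UpperHalfPlane CongruenceSubgroup Filter Topology ModularCurve ModularCurve.Period
open scoped MatrixGroups

namespace Fermat.Agent.S21.RealPeriodsAlt

open Fermat.Agent.S21.Primitive

variable {N : ℕ}

/-- The function `exp(-i F)` attached to the canonical primitive `F` of `f`. -/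
noncomputable def gfun (f : CuspForm (Gamma0 N) 2) (z : ℍ) : ℂ :=
  Complex.exp (-Complex.I * primH f z)

theorem norm_gfun (f : CuspForm (Gamma0 N) 2) (z : ℍ) :
    ‖gfun f z‖ = Real.exp (primH f z).im := by
  rw [gfun, Complex.norm_exp]
  simp

theorem gfun_ne_zero (f : CuspForm (Gamma0 N) 2) (z : ℍ) : gfun f z ≠ 0 := Complex.exp_ne_zero _

/-- Equivariance of the canonical primitive. -/
theorem primH_smul_Gamma0 [NeZero N] (f : CuspForm (Gamma0 N) 2) (γ : Gamma0 N) (z : ℍ) :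
    primH f ((γ : SL(2, ℤ)) • z) = primH f z + periodMap N f (Additive.ofMul γ) := by
  rw [periodMap_apply f γ z]; ring

/-- If all periods are real, then `‖exp(-i F)‖` is `Γ₀(N)`-invariant. -/
theorem norm_gfun_smul [NeZero N] (f : CuspForm (Gamma0 N) 2)
    (h : ∀ γ, (periodMap N f γ).im = 0) (γ : Gamma0 N) (z : ℍ) :
    ‖gfun f ((γ : SL(2, ℤ)) • z)‖ = ‖gfun f z‖ := by
  rw [norm_gfun, norm_gfun, primH_smul_Gamma0, Complex.add_im, h, add_zero]

theorem Gamma_le_Gamma0 (N : ℕ) : CongruenceSubgroup.Gamma N ≤ Gamma0 N := fun _ hγ =>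
  Gamma0_mem.mpr (Gamma_mem.mp hγ).2.2.1

/-- The canonical primitive composed with any `δ ∈ SL(2, ℤ)` is `N`-periodic. -/
theorem primH_smul_T_pow [NeZero N] (f : CuspForm (Gamma0 N) 2) (δ : SL(2, ℤ)) (w : ℍ) :
    primH f (δ • (ModularGroup.T ^ (N : ℤ) • w)) = primH f (δ • w) := by
  have hF := isEquivariantPrimitive_primH f
  have hT : ModularGroup.T ^ (N : ℤ) ∈ CongruenceSubgroup.Gamma N := by
    have := ModularGroup_T_pow_mem_Gamma (N : ℤ) (N : ℤ) dvd_rfl
    simpa using this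
  have hmem : δ * ModularGroup.T ^ (N : ℤ) * δ⁻¹ ∈ Gamma0 N :=
    Gamma_le_Gamma0 N ((Gamma_normal N).conj_mem _ hT δ)
  set γ : Gamma0 N := ⟨δ * ModularGroup.T ^ (N : ℤ) * δ⁻¹, hmem⟩ with hγ
  have hsm : ∀ w : ℍ, (γ : SL(2, ℤ)) • (δ • w) = δ • (ModularGroup.T ^ (N : ℤ) • w) := by
    intro w
    rw [hγ, ← mul_smul, ← mul_smul]
    congr 1
    group
  have h1 : ∀ w : ℍ, primH f (δ • (ModularGroup.T ^ (N : ℤ) • w)) - primH f (δ • w)
      = hF.period γ := by
    intro w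
    rw [← hsm w]
    exact hF.sub_eq_period γ (δ • w)
  obtain ⟨L, hL⟩ := exists_tendsto_primH_smul f δ
  have h2 : Tendsto (fun w : ℍ => primH f (δ • (ModularGroup.T ^ (N : ℤ) • w)) - primH f (δ • w))
      atImInfty (𝓝 (L - L)) :=
    (hL.comp (Parabolic.tendsto_T_zpow_smul (N : ℤ))).sub hL
  have h3 : Tendsto (fun _ : ℍ => hF.period γ) atImInfty (𝓝 (L - L)) := h2.congr fun w => h1 w
  have h4 := tendsto_nhds_unique h3 tendsto_const_nhds
  rw [sub_self] at h4
  have := h1 w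
  rw [← h4, sub_eq_zero] at this
  exact this

/-- The translates `z ↦ exp(-i F(δ z))` as functions on `ℂ`. -/
noncomputable def Gfun (f : CuspForm (Gamma0 N) 2) (δ : SL(2, ℤ)) (z : ℂ) : ℂ :=
  gfun f (δ • ofComplex z)

theorem Gfun_coe (f : CuspForm (Gamma0 N) 2) (δ : SL(2, ℤ)) (z : ℍ) :
    Gfun f δ (z : ℂ) = gfun f (δ • z) := by
  rw [Gfun, ofComplex_apply]

theorem periodic_Gfun [NeZero N] (f : CuspForm (Gamma0 N) 2) (δ : SL(2, ℤ)) :
    Function.Periodic (Gfun f δ) (N : ℝ) := by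
  intro w
  by_cases hw : 0 < w.im
  · have hw' : 0 < (w + (N : ℝ)).im := by simpa using hw
    have e : ofComplex (w + ((N : ℝ) : ℂ)) = ModularGroup.T ^ (N : ℤ) • ofComplex w := by
      rw [ofComplex_apply_of_im_pos hw', ofComplex_apply_of_im_pos hw]
      apply UpperHalfPlane.ext
      rw [ModularGroup.coe_T_zpow_smul_eq]
      simp
    rw [Gfun, Gfun, e, gfun, gfun, primH_smul_T_pow]
  · have hw1 : w.im ≤ 0 := not_lt.mp hw
    have hw2 : (w + ((N : ℝ) : ℂ)).im ≤ 0 := by simpa using hw1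
    rw [Gfun, Gfun, ofComplex_apply_eq_of_im_nonpos hw2 hw1]

theorem differentiableAt_primH_smul (f : CuspForm (Gamma0 N) 2) (δ : SL(2, ℤ)) {z : ℂ}
    (hz : 0 < z.im) : DifferentiableAt ℂ (fun z : ℂ => primH f (δ • ofComplex z)) z := by
  set g : GL (Fin 2) ℝ := Matrix.SpecialLinearGroup.mapGL ℝ δ with hg
  have hdet : 0 < g.val.det := by
    have h3 := congrArg Units.val (Matrix.SpecialLinearGroup.det_mapGL (S := ℝ) δ)
    rw [Matrix.GeneralLinearGroup.val_det_apply] at h3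
    rw [hg, h3]; exact one_pos
  have h1 : DifferentiableAt ℂ (fun z : ℂ => ((g • ofComplex z : ℍ) : ℂ)) z := by
    have := (hasStrictDerivAt_smul hdet ⟨z, hz⟩).hasDerivAt.differentiableAt
    simpa using this
  have h2 : DifferentiableAt ℂ (primH f ∘ ofComplex) ((g • ofComplex z : ℍ) : ℂ) :=
    (hasDerivAt_primH f _).differentiableAt
  have h3 := h2.comp z h1
  refine h3.congr_of_eventuallyEq (Eventually.of_forall fun w => ?_)
  simp only [Function.comp_apply, ofComplex_apply]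
  rfl

theorem differentiableAt_Gfun (f : CuspForm (Gamma0 N) 2) (δ : SL(2, ℤ)) {z : ℂ}
    (hz : 0 < z.im) : DifferentiableAt ℂ (Gfun f δ) z := by
  unfold Gfun gfun
  exact ((differentiableAt_primH_smul f δ hz).const_mul (-Complex.I)).cexp

theorem bounded_Gfun [NeZero N] (f : CuspForm (Gamma0 N) 2) (δ : SL(2, ℤ)) :
    BoundedAtFilter (comap Complex.im atTop) (Gfun f δ) := by
  obtain ⟨L, hL⟩ := exists_tendsto_primH_smul f δ
  have h1 : Tendsto (fun z : ℂ => primH f (δ • ofComplex z)) (comap Complex.im atTop) (𝓝 L) :=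
    hL.comp tendsto_comap_im_ofComplex
  have h2 : Tendsto (Gfun f δ) (comap Complex.im atTop) (𝓝 (Complex.exp (-Complex.I * L))) := by
    unfold Gfun gfun
    exact (Complex.continuous_exp.tendsto _).comp (h1.const_mul (-Complex.I))
  exact h2.isBigO_one ℝ

/-- Coset representatives of `Γ₀(N)` in `SL(2, ℤ)` (inverses of the chosen left representatives). -/
noncomputable def rep (N : ℕ) (q : SL(2, ℤ) ⧸ Gamma0 N) : SL(2, ℤ) := (Quotient.out q)⁻¹

theorem exists_eq_mul_rep (N : ℕ) (σ : SL(2, ℤ)) :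
    ∃ (q : SL(2, ℤ) ⧸ Gamma0 N) (γ : Gamma0 N), σ = (γ : SL(2, ℤ)) * rep N q := by
  obtain ⟨h, hh⟩ := QuotientGroup.mk_out_eq_mul (Gamma0 N) σ⁻¹
  refine ⟨((σ⁻¹ : SL(2, ℤ)) : SL(2, ℤ) ⧸ Gamma0 N), h, ?_⟩
  rw [rep, hh]
  group

/-- If all periods of `f` are real, then `exp(-i F)` is constant. -/
theorem gfun_const [NeZero N] (f : CuspForm (Gamma0 N) 2)
    (h : ∀ γ, (periodMap N f γ).im = 0) : ∃ c : ℂ, ∀ z : ℍ, gfun f z = c := by
  have hN : (0 : ℝ) < (N : ℝ) := Nat.cast_pos.mpr (NeZero.pos N)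
  have hdom : ∀ (q : SL(2, ℤ) ⧸ Gamma0 N) (z : ℂ), 0 < z.im →
      ∃ (q' : SL(2, ℤ) ⧸ Gamma0 N) (w : ℂ), 1 / 2 ≤ w.im ∧
        ‖Gfun f (rep N q) z‖ ≤ ‖Gfun f (rep N q') w‖ := by
    intro q z hz
    set τ : ℍ := rep N q • ofComplex z with hτ
    obtain ⟨σ, hσ⟩ := ModularGroup.exists_one_half_le_im_smul τ
    obtain ⟨q', γ, hγ⟩ := exists_eq_mul_rep N σ⁻¹
    refine ⟨q', ((σ • τ : ℍ) : ℂ), hσ, ?_⟩
    rw [Gfun_coe]
    show ‖gfun f τ‖ ≤ _
    have e : τ = (γ : SL(2, ℤ)) • (rep N q' • (σ • τ)) := by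
      rw [← mul_smul, ← hγ, inv_smul_smul]
    conv_lhs => rw [e]
    rw [norm_gfun_smul f h]
  obtain ⟨j, hj⟩ := MaxPeriodic.exists_const_of_dominated (ι := SL(2, ℤ) ⧸ Gamma0 N)
    hN (A := 1 / 2) (by norm_num)
    (fun q => Gfun f (rep N q)) (fun q => periodic_Gfun f _)
    (fun q z hz => differentiableAt_Gfun f _ hz) (fun q => bounded_Gfun f _) hdom
  refine ⟨Function.Periodic.cuspFunction (N : ℝ) (Gfun f (rep N j)) 0, fun z => ?_⟩
  have := hj (((rep N j)⁻¹ • z : ℍ) : ℂ) (UpperHalfPlane.im_pos _)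
  rw [Gfun_coe, smul_inv_smul] at this
  exact this

/-- **(ES3)** A weight-two cusp form on `Γ₀(N)` all of whose periods are real is zero. -/
theorem eq_zero_of_im_periods [NeZero N] (f : CuspForm (Gamma0 N) 2)
    (h : ∀ γ, (periodMap N f γ).im = 0) : f = 0 := by
  obtain ⟨c, hc⟩ := gfun_const f h
  refine DFunLike.ext _ _ fun τ => ?_
  show f τ = 0
  have h1 : HasDerivAt (fun z : ℂ => Complex.exp (-Complex.I * (primH f ∘ ofComplex) z))
      (Complex.exp (-Complex.I * (primH f ∘ ofComplex) τ) * (-Complex.I * f τ)) τ :=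
    ((hasDerivAt_primH f τ).const_mul (-Complex.I)).cexp
  have h2 : (fun z : ℂ => Complex.exp (-Complex.I * (primH f ∘ ofComplex) z))
      =ᶠ[𝓝 (τ : ℂ)] fun _ => c := by
    filter_upwards [isOpen_upperHalfPlaneSet.mem_nhds τ.im_pos] with z hz
    have := hc ⟨z, hz⟩
    rw [gfun] at this
    simpa [ofComplex_apply_of_im_pos hz] using this
  have h3 : HasDerivAt (fun z : ℂ => Complex.exp (-Complex.I * (primH f ∘ ofComplex) z)) 0 τ :=
    (hasDerivAt_const _ c).congr_of_eventuallyEq h2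
  have h4 := h1.unique h3
  simpa [Complex.exp_ne_zero] using h4

end Fermat.Agent.S21.RealPeriodsAlt
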